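import Mathlib.Analysis.Complex.Periodic
import Mathlib.Analysis.Complex.HasPrimitives
import Mathlib.Analysis.Complex.RemovableSingularity
import Mathlib.Analysis.Complex.UpperHalfPlane.Exp

/-!
# Primitives of periodic holomorphic functions vanishing at `i∞`

If `f : ℂ → ℂ` is `h`-periodic, holomorphic on the upper half plane and tends to `0` at `i∞`,
then it has an `h`-periodic primitive on the upper half plane which also tends to `0` at `i∞`.
-/

set_option autoImplicit false

open Complex Filter Function Metric Set Topology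
open scoped Real

namespace Fermat.Agent.S22x

local notation "I∞" => comap Complex.im atTop
local notation "𝕢" => Function.Periodic.qParam

/-- derivative of the `q`-parameter. -/
theorem hasDerivAt_qParam_h76 (h : ℝ) (z : ℂ) :
    HasDerivAt (𝕢 h) (𝕢 h z * (2 * π * I / h)) z := by
  simpa only [id_eq, mul_one] using!
    (((hasDerivAt_id z).const_mul (2 * π * I)).div_const (h : ℂ)).cexp

/-- **Periodic primitive.** -/
theorem exists_periodic_primitive {h : ℝ} (hh : 0 < h) {f : ℂ → ℂ} (hper : Periodic f h)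
    (hhol : ∀ z : ℂ, 0 < z.im → DifferentiableAt ℂ f z) (hzero : ZeroAtFilter I∞ f) :
    ∃ F : ℂ → ℂ, Periodic F h ∧ (∀ z : ℂ, 0 < z.im → HasDerivAt F (f z) z) ∧
      ZeroAtFilter I∞ F := by
  set φ : ℂ → ℂ := Function.Periodic.cuspFunction h f with hφ
  have hφ0 : φ 0 = 0 := Function.Periodic.cuspFunction_zero_of_zero_at_inf hh hzero
  have hev : ∀ᶠ z in I∞, DifferentiableAt ℂ f z := by
    have : {z : ℂ | 0 < z.im} ∈ I∞ := preimage_mem_comap (Ioi_mem_atTop 0)
    exact eventually_of_mem this fun z hz => hhol z hz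
  have hφdiff : DifferentiableOn ℂ φ (ball 0 1) := by
    intro q hq
    rw [mem_ball_zero_iff] at hq
    refine DifferentiableAt.differentiableWithinAt ?_
    rcases eq_or_ne q 0 with rfl | hq0
    · exact Function.Periodic.differentiableAt_cuspFunction_zero hh hper hev
        hzero.boundedAtFilter
    · have hz : 0 < (Function.Periodic.invQParam h q).im :=
        Function.Periodic.im_invQParam_pos_of_norm_lt_one hh hq hq0
      have := Function.Periodic.differentiableAt_cuspFunction hh.ne' hper (hhol _ hz)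
      rwa [Function.Periodic.qParam_right_inv hh.ne' hq0] at this
  have hψdiff : DifferentiableOn ℂ (dslope φ 0) (ball 0 1) :=
    (Complex.differentiableOn_dslope (ball_mem_nhds 0 one_pos)).mpr hφdiff
  obtain ⟨G, hG0, hG⟩ := (hψdiff.isExactOn_ball).with_val_at 0 0
  refine ⟨fun z => (h / (2 * π * I)) * G (𝕢 h z), ?_, ?_, ?_⟩
  · intro z
    have : 𝕢 h (z + h) = 𝕢 h z := by
      simp only [Function.Periodic.qParam]
      rw [show 2 * ↑π * I * (z + ↑h) / ↑h = 2 * ↑π * I * z / ↑h + 2 * π * I by
        field_simp [hh.ne']]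
      rw [Complex.exp_add, Complex.exp_two_pi_mul_I, mul_one]
    simp only [this]
  · intro z hz
    have hq : 𝕢 h z ∈ ball (0 : ℂ) 1 := by
      rw [mem_ball_zero_iff]; exact Function.Periodic.norm_qParam_lt_one hh hz
    have hq0 : 𝕢 h z ≠ 0 := Function.Periodic.qParam_ne_zero z
    have h1 := (hG _ hq).comp z (hasDerivAt_qParam_h76 h z)
    have h2 := h1.const_mul (h / (2 * π * I))
    refine h2.congr_deriv ?_
    symm
    have hds : dslope φ 0 (𝕢 h z) * 𝕢 h z = f z := by
      rw [dslope_of_ne _ hq0, slope_def_field, hφ0, sub_zero, sub_zero, div_mul_cancel₀ _ hq0,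
        hφ, Function.Periodic.eq_cuspFunction hh.ne' hper]
    have hh' : (h : ℂ) ≠ 0 := by exact_mod_cast hh.ne'
    have hpi : (2 * π * I : ℂ) ≠ 0 := Complex.two_pi_I_ne_zero
    calc f z = dslope φ 0 (𝕢 h z) * 𝕢 h z := hds.symm
      _ = h / (2 * π * I) * (dslope φ 0 (𝕢 h z) * (𝕢 h z * (2 * π * I / h))) := by
        field_simp
  · have hGc : ContinuousAt G 0 := (hG 0 (mem_ball_self one_pos)).continuousAt
    have h1 : Tendsto (𝕢 h) I∞ (𝓝 0) :=
      (Function.Periodic.qParam_tendsto hh).mono_right nhdsWithin_le_nhds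
    have h2 : Tendsto (fun z => G (𝕢 h z)) I∞ (𝓝 0) := by
      have := hGc.tendsto.comp h1
      rwa [hG0] at this
    have h3 := h2.const_mul (h / (2 * π * I) : ℂ)
    rw [mul_zero] at h3
    exact h3

end Fermat.Agent.S22x
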