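import Mathlib.NumberTheory.ModularForms.QExpansion
import Fermat.Agent.S22x.PeriodicPrimitive

/-!
# "Nice" functions on the upper half plane and their primitives

A function `F : ℍ → ℂ` is *nice of period `h`* if it is holomorphic, `h`-periodic and tends to `0`
at `i∞`. Every nice function has a unique nice primitive.
-/

set_option autoImplicit false

open Complex Filter Function Metric Set Topology UpperHalfPlane
open scoped Real Manifold

namespace Fermat.Agent.S22x

local notation "I∞" => comap Complex.im atTop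

/-- holomorphic, `h`-periodic, zero at `i∞`. -/
structure IsNice (h : ℝ) (F : ℍ → ℂ) : Prop where
  mdiff : MDiff F
  periodic : Periodic (F ∘ ofComplex) h
  zero : IsZeroAtImInfty F

/-- `G` is a primitive of `F` on the upper half plane. -/
def IsPrimitiveOf (G F : ℍ → ℂ) : Prop :=
  ∀ z : ℍ, HasDerivAt (G ∘ ofComplex) (F z) (z : ℂ)

theorem IsPrimitiveOf.mdiff {G F : ℍ → ℂ} (h : IsPrimitiveOf G F) : MDiff G := by
  rw [UpperHalfPlane.mdifferentiable_iff]
  intro z hz
  have := h ⟨z, hz⟩
  exact this.differentiableAt.differentiableWithinAt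

theorem IsNice.differentiableAt {h : ℝ} {F : ℍ → ℂ} (hF : IsNice h F) {z : ℂ} (hz : 0 < z.im) :
    DifferentiableAt ℂ (F ∘ ofComplex) z :=
  (UpperHalfPlane.mdifferentiable_iff.mp hF.mdiff z hz).differentiableAt
    (isOpen_upperHalfPlaneSet.mem_nhds hz)

/-- Existence of a nice primitive. -/
theorem IsNice.exists_primitive {h : ℝ} (hh : 0 < h) {F : ℍ → ℂ} (hF : IsNice h F) :
    ∃ G : ℍ → ℂ, IsNice h G ∧ IsPrimitiveOf G F := by
  obtain ⟨G, hGper, hGder, hGzero⟩ := exists_periodic_primitive hh hF.periodic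
    (fun z hz => hF.differentiableAt hz) (hF.zero.comp tendsto_comap_im_ofComplex)
  refine ⟨fun z => G z, ⟨?_, ?_, ?_⟩, ?_⟩
  · rw [UpperHalfPlane.mdifferentiable_iff]
    intro z hz
    have hd : DifferentiableAt ℂ G z := (hGder z hz).differentiableAt
    refine (hd.congr_of_eventuallyEq ?_).differentiableWithinAt
    filter_upwards [isOpen_upperHalfPlaneSet.mem_nhds hz] with w hw
    simp [Function.comp_apply, ofComplex_apply_of_im_pos hw]
  · intro w
    by_cases hw : 0 < w.im
    · have hw' : 0 < (w + h).im := by simpa using hw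
      simp only [Function.comp_apply, ofComplex_apply_of_im_pos hw,
        ofComplex_apply_of_im_pos hw', UpperHalfPlane.coe_mk]
      exact hGper w
    · have hw0 : w.im ≤ 0 := not_lt.mp hw
      have hw' : (w + h).im ≤ 0 := by simpa using hw0
      simp only [Function.comp_apply, ofComplex_apply_of_im_nonpos hw0,
        ofComplex_apply_of_im_nonpos hw']
  · exact hGzero.comp tendsto_coe_atImInfty
  · intro z
    have hz : 0 < (z : ℂ).im := z.im_pos
    have h1 : HasDerivAt G ((F ∘ ofComplex) z) z := hGder z hz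
    have h2 : (F ∘ ofComplex) (z : ℂ) = F z := by simp [ofComplex_apply]
    rw [h2] at h1
    refine h1.congr_of_eventuallyEq ?_
    filter_upwards [isOpen_upperHalfPlaneSet.mem_nhds hz] with w hw
    simp [Function.comp_apply, ofComplex_apply_of_im_pos hw]

/-- A function on `ℍ` with vanishing derivative is constant. -/
theorem eq_const_of_isPrimitiveOf_zero {G : ℍ → ℂ} (hG : IsPrimitiveOf G 0) (z w : ℍ) :
    G z = G w := by
  have hconv : Convex ℝ {z : ℂ | 0 < z.im} := by
    intro x hx y hy a b ha hb hab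
    simp only [Set.mem_ofPred_eq, add_im, smul_im, smul_eq_mul] at *
    rcases ha.eq_or_lt with rfl | ha'
    · simp only [zero_add] at hab; subst hab; simpa using hy
    · have h1 : 0 < a * x.im := mul_pos ha' hx
      have h2 : 0 ≤ b * y.im := mul_nonneg hb hy.le
      linarith
  have hdiff : DifferentiableOn ℂ (G ∘ ofComplex) {z : ℂ | 0 < z.im} := fun x hx =>
    (hG ⟨x, hx⟩).differentiableAt.differentiableWithinAt
  have hderiv : ∀ x ∈ {z : ℂ | 0 < z.im}, fderivWithin ℂ (G ∘ ofComplex) {z : ℂ | 0 < z.im} x = 0 := by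
    intro x hx
    rw [fderivWithin_of_isOpen isOpen_upperHalfPlaneSet hx]
    have := (hG ⟨x, hx⟩).hasFDerivAt.fderiv
    rw [this]
    simp
  have := hconv.is_const_of_fderivWithin_eq_zero (𝕜 := ℂ) hdiff hderiv z.im_pos w.im_pos
  simpa [ofComplex_apply] using this

/-- Uniqueness of nice primitives. -/
theorem IsPrimitiveOf.eq_of_isZeroAtImInfty {G₁ G₂ F : ℍ → ℂ} (h₁ : IsPrimitiveOf G₁ F)
    (h₂ : IsPrimitiveOf G₂ F) (z₁ : IsZeroAtImInfty G₁) (z₂ : IsZeroAtImInfty G₂) : G₁ = G₂ := by
  have hsub : IsPrimitiveOf (G₁ - G₂) 0 := by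
    intro z
    have h3 : HasDerivAt ((G₁ - G₂) ∘ ofComplex) (F z - F z) (z : ℂ) := (h₁ z).sub (h₂ z)
    rw [sub_self] at h3
    exact h3
  have hconst : ∀ z : ℍ, (G₁ - G₂) z = (G₁ - G₂) UpperHalfPlane.I :=
    fun z => eq_const_of_isPrimitiveOf_zero hsub z _
  have hlim : Tendsto (G₁ - G₂) atImInfty (𝓝 0) := by
    have h3 : Tendsto (G₁ - G₂) atImInfty (𝓝 (0 - 0)) := Filter.Tendsto.sub z₁ z₂
    rwa [sub_zero] at h3
  have hlim' : Tendsto (G₁ - G₂) atImInfty (𝓝 ((G₁ - G₂) UpperHalfPlane.I)) := by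
    have : (G₁ - G₂) = fun _ => (G₁ - G₂) UpperHalfPlane.I := funext hconst
    rw [this]
    exact tendsto_const_nhds
  have h0 : (G₁ - G₂) UpperHalfPlane.I = 0 := tendsto_nhds_unique hlim' hlim
  funext z
  have := hconst z
  rw [h0, Pi.sub_apply, sub_eq_zero] at this
  exact this

end Fermat.Agent.S22x
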