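import Mathlib.NumberTheory.ModularForms.Identities
import Mathlib.NumberTheory.ModularForms.Cusps
import Fermat.Agent.S22x.NicePrimitive

/-!
# Slashes of cusp forms for `Γ₀(N)` by `SL(2, ℤ)` are nice of period `N`
-/

set_option autoImplicit false

open Complex Filter Function UpperHalfPlane CongruenceSubgroup Matrix.SpecialLinearGroup
open scoped Real Manifold MatrixGroups ModularForm

namespace Fermat.Agent.S22x

theorem Gamma_le_Gamma0 (N : ℕ) : Gamma N ≤ Gamma0 N := by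
  intro γ hγ
  rw [Gamma_mem] at hγ
  rw [Gamma0_mem]
  exact hγ.2.2.1

/-- slash by `g ∈ SL(2,ℤ)` of a `Γ₀(N)`-invariant function is `Γ(N)`-invariant. -/
theorem slash_slash_Gamma_eq {N : ℕ} {k : ℤ} {f : ℍ → ℂ}
    (hf : ∀ γ ∈ Gamma0 N, f ∣[k] γ = f) (g : SL(2, ℤ)) (γ : SL(2, ℤ)) (hγ : γ ∈ Gamma N) :
    (f ∣[k] g) ∣[k] γ = f ∣[k] g := by
  have hconj : g * γ * g⁻¹ ∈ Gamma N := (Gamma_normal N).conj_mem γ hγ g
  have h1 := hf _ (Gamma_le_Gamma0 N hconj)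
  calc (f ∣[k] g) ∣[k] γ = f ∣[k] (g * γ) := (SlashAction.slash_mul k g γ f).symm
    _ = f ∣[k] ((g * γ * g⁻¹) * g) := by rw [inv_mul_cancel_right]
    _ = (f ∣[k] (g * γ * g⁻¹)) ∣[k] g := SlashAction.slash_mul k _ g f
    _ = f ∣[k] g := by rw [h1]

/-- The slash of a `Γ₀(N)`-invariant function by `g ∈ SL(2,ℤ)`, as a `Γ(N)`-slash invariant form. -/
noncomputable def slashSIF {N : ℕ} {k : ℤ} (f : ℍ → ℂ)
    (hf : ∀ γ ∈ Gamma0 N, f ∣[k] γ = f) (g : SL(2, ℤ)) :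
    SlashInvariantForm ((Gamma N : Subgroup SL(2, ℤ)) : Subgroup (GL (Fin 2) ℝ)) k where
  toFun := f ∣[k] g
  slash_action_eq' := by
    rintro _ ⟨γ, hγ, rfl⟩
    have := slash_slash_Gamma_eq hf g γ hγ
    rwa [ModularForm.SL_slash] at this

theorem periodic_slash {N : ℕ} {k : ℤ} (f : ℍ → ℂ)
    (hf : ∀ γ ∈ Gamma0 N, f ∣[k] γ = f) (g : SL(2, ℤ)) :
    Periodic ((f ∣[k] g) ∘ ofComplex) (N : ℝ) := by
  have h := SlashInvariantFormClass.periodic_comp_ofComplex (slashSIF f hf g)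
    (h := (N : ℝ)) (by
      rw [strictPeriods_Gamma]
      exact AddSubgroup.mem_zmultiples _)
  exact h

variable {F : Type*} [FunLike F ℍ ℂ]

theorem slash_eq_of_mem_Gamma0 {N : ℕ} {k : ℤ}
    [SlashInvariantFormClass F ((Gamma0 N : Subgroup SL(2, ℤ)) : Subgroup (GL (Fin 2) ℝ)) k]
    (f : F) : ∀ γ ∈ Gamma0 N, (f : ℍ → ℂ) ∣[k] γ = f := by
  intro γ hγ
  rw [ModularForm.SL_slash]
  exact SlashInvariantFormClass.slash_action_eq f _ (Subgroup.mem_map_of_mem _ hγ)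

/-- Slashes of `Γ₀(N)` cusp forms by elements of `SL(2,ℤ)` are nice of period `N`. -/
theorem isNice_slash {N : ℕ} [NeZero N] {k : ℤ}
    [CuspFormClass F ((Gamma0 N : Subgroup SL(2, ℤ)) : Subgroup (GL (Fin 2) ℝ)) k]
    (f : F) (g : SL(2, ℤ)) : IsNice (N : ℝ) ((f : ℍ → ℂ) ∣[k] g) where
  mdiff := by
    rw [ModularForm.SL_slash]
    exact (CuspFormClass.holo f).slash k _
  periodic := periodic_slash _ (slash_eq_of_mem_Gamma0 f) g
  zero := CuspFormClass.zero_at_infty_slash f g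

end Fermat.Agent.S22x
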