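/-
S22 helper library, core definitions (shared by all S22x files).
Plan: modular-symbol lattice via Eichler integrals; see team reports (stmt S22).
-/
import Mathlib
import Fermat.Prelude.Def_CuspForm_HeckeAlgebra

set_option autoImplicit false

namespace Fermat.Agent.S22x

open UpperHalfPlane Derivative
open scoped MatrixGroups ModularForm Manifold

/-- Integer `2 × 2` matrices of positive determinant, viewed inside `GL (Fin 2) ℝ`. -/
def M2pos : Submonoid (GL (Fin 2) ℝ) where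
  carrier := {g | 0 < g.val.det ∧ ∀ i j, ∃ m : ℤ, g.val i j = (m : ℝ)}
  one_mem' := by
    refine ⟨by simp, fun i j => ?_⟩
    by_cases h : i = j
    · exact ⟨1, by simp [h]⟩
    · exact ⟨0, by simp [h]⟩
  mul_mem' := by
    rintro a b ⟨ha, ha'⟩ ⟨hb, hb'⟩
    refine ⟨by simpa [Matrix.det_mul] using mul_pos ha hb, fun i j => ?_⟩
    choose ma hma using ha'
    choose mb hmb using hb'
    refine ⟨∑ l, ma i l * mb l j, ?_⟩
    simp [Matrix.mul_apply, hma, hmb]

theorem mem_M2pos_iff {g : GL (Fin 2) ℝ} :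
    g ∈ M2pos ↔ 0 < g.val.det ∧ ∀ i j, ∃ m : ℤ, g.val i j = (m : ℝ) := Iff.rfl

/-- A "cusp function": holomorphic on `ℍ`, periodic for some positive real period, and tending
to zero at `i∞`. -/
structure IsCuspFn (h : ℍ → ℂ) : Prop where
  mdiff : MDiff h
  periodic : ∃ w : ℝ, 0 < w ∧ ∀ z : ℍ, h (w +ᵥ z) = h z
  zero : IsZeroAtImInfty h

/-- `h ∣[k] g` is a cusp function for every integral `g` of positive determinant. -/
def IsCuspFnAll (k : ℤ) (h : ℍ → ℂ) : Prop := ∀ g ∈ M2pos, IsCuspFn (h ∣[k] g)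

/-- The un-normalised weight `-n` right action: `(act n g F) z = (c z + d) ^ n * F (g z)`. -/
noncomputable def act (n : ℕ) (g : GL (Fin 2) ℝ) (F : ℍ → ℂ) : ℍ → ℂ :=
  fun z => denom g z ^ n * F (g • z)

/-- The `m`-fold Eichler integral of `h`: the (unique, when it exists) holomorphic function,
vanishing at `i∞`, whose `m`-th normalised derivative is `h`. Junk value `0` otherwise. -/
noncomputable def eichler (m : ℕ) (h : ℍ → ℂ) : ℍ → ℂ :=
  open Classical in
  if H : ∃ E : ℍ → ℂ, MDiff E ∧ IsZeroAtImInfty E ∧ D^[m] E = h then H.choose else 0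

/-- The period function `ρ_g(h) = act g (E h) - E (h ∣[n+2] g)` (a polynomial function of degree
`≤ n` for good `h`, `g`). -/
noncomputable def rhoFn (n : ℕ) (g : GL (Fin 2) ℝ) (h : ℍ → ℂ) : ℍ → ℂ :=
  act n g (eichler (n + 1) h) - eichler (n + 1) (h ∣[(n : ℤ) + 2] g)

/-- The period polynomial: the polynomial of degree `≤ n` agreeing with `rhoFn n g h` on `ℍ`
(junk value `0` if there is none). -/
noncomputable def rhoPoly (n : ℕ) (g : GL (Fin 2) ℝ) (h : ℍ → ℂ) : Polynomial ℂ :=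
  open Classical in
  if H : ∃ p : Polynomial ℂ, p.natDegree ≤ n ∧ ∀ z : ℍ, rhoFn n g h z = p.eval (z : ℂ)
  then H.choose else 0

open Polynomial in
/-- The action of `g` on polynomials of degree `≤ n`:
`(polyAct n g p)(X) = ∑ᵢ pᵢ (aX+b)^i (cX+d)^(n-i)`, i.e. `(cX+d)^n p((aX+b)/(cX+d))`. -/
noncomputable def polyAct (n : ℕ) (g : GL (Fin 2) ℝ) (p : Polynomial ℂ) : Polynomial ℂ :=
  ∑ i ∈ Finset.range (n + 1), C (p.coeff i) *
    (C ((g 0 0 : ℝ) : ℂ) * X + C ((g 0 1 : ℝ) : ℂ)) ^ i *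
    (C ((g 1 0 : ℝ) : ℂ) * X + C ((g 1 1 : ℝ) : ℂ)) ^ (n - i)

end Fermat.Agent.S22x
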