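/-
S22 helper library: cusp forms of level `Γ₀(N)` give "cusp functions" after slashing with any
integral matrix of positive determinant.
-/
import Fermat.Agent.S22x.Defs

set_option autoImplicit false

namespace Fermat.Agent.S22x

open UpperHalfPlane Derivative CongruenceSubgroup Matrix Matrix.SpecialLinearGroup OnePoint
open scoped MatrixGroups ModularForm Manifold

/-! ### membership in `M2pos`  (`mapGL_mem_M2pos` is in `Hermite.lean`) -/

theorem heckeMatrix_mem_M2pos {p : ℕ} (hp : p ≠ 0) (j : ℕ) :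
    ModularForm.heckeMatrix p j ∈ M2pos := by
  refine ⟨?_, fun i l => ?_⟩
  · have := ModularForm.det_heckeMatrix_pos p j
    simpa [Matrix.GeneralLinearGroup.val_det_apply] using this
  · rw [ModularForm.val_heckeMatrix hp]
    fin_cases i <;> fin_cases l
    · exact ⟨1, by simp⟩
    · exact ⟨j, by simp⟩
    · exact ⟨0, by simp⟩
    · exact ⟨p, by simp⟩

theorem heckeDiagMatrix_mem_M2pos {p : ℕ} (hp : p ≠ 0) :
    ModularForm.heckeDiagMatrix p ∈ M2pos := by
  refine ⟨?_, fun i l => ?_⟩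
  · rw [ModularForm.val_heckeDiagMatrix hp, Matrix.det_fin_two_of]
    have : (0 : ℝ) < p := by exact_mod_cast Nat.pos_of_ne_zero hp
    simpa using this
  · rw [ModularForm.val_heckeDiagMatrix hp]
    fin_cases i <;> fin_cases l
    · exact ⟨p, by simp⟩
    · exact ⟨0, by simp⟩
    · exact ⟨0, by simp⟩
    · exact ⟨1, by simp⟩

/-! ### formal properties of `IsCuspFnAll` -/

theorem IsCuspFnAll.slash {k : ℤ} {h : ℍ → ℂ} (hh : IsCuspFnAll k h) {g : GL (Fin 2) ℝ}
    (hg : g ∈ M2pos) : IsCuspFnAll k (h ∣[k] g) := by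
  intro g' hg'
  rw [← SlashAction.slash_mul]
  exact hh _ (M2pos.mul_mem hg hg')

theorem IsCuspFnAll.isCuspFn {k : ℤ} {h : ℍ → ℂ} (hh : IsCuspFnAll k h) : IsCuspFn h := by
  have := hh 1 M2pos.one_mem
  rwa [SlashAction.slash_one] at this

/-! ### cusp forms -/

/-- `g • ∞` is a rational point of `ℙ¹(ℝ)` if `g` has integer entries. -/
theorem smul_infty_mem_range_of_mem_M2pos {g : GL (Fin 2) ℝ} (hg : g ∈ M2pos) :
    g • (∞ : OnePoint ℝ) ∈ Set.range (OnePoint.map (Rat.cast : ℚ → ℝ)) := by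
  obtain ⟨-, hint⟩ := hg
  obtain ⟨a, ha⟩ := hint 0 0
  obtain ⟨c, hc⟩ := hint 1 0
  rw [OnePoint.smul_infty_eq_ite]
  split_ifs with h0
  · exact ⟨∞, by simp⟩
  · refine ⟨((a : ℚ) / (c : ℚ) : ℚ), ?_⟩
    have ha' : g 0 0 = (a : ℝ) := ha
    have hc' : g 1 0 = (c : ℝ) := hc
    simp [ha', hc']

/-- slashing with the unipotent matrix `[1, w; 0, 1]` is translation by `w`. -/
theorem slash_upperRightHom_apply (k : ℤ) (h : ℍ → ℂ) (w : ℝ) (z : ℍ) :
    (h ∣[k] Matrix.GeneralLinearGroup.upperRightHom w) z = h (w +ᵥ z) := by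
  have hsm : Matrix.GeneralLinearGroup.upperRightHom w • z = w +ᵥ z := by
    ext
    simp [σ, num, denom, coe_vadd, UpperHalfPlane.coe_smul, add_comm]
  rw [ModularForm.slash_def]
  simp only [hsm]
  simp [σ, denom, Matrix.GeneralLinearGroup.val_det_apply]

/-- the explicit element of `Γ₀(N)` conjugating `g` to a translation -/
def conjTranslate (N : ℕ) (a c : ℤ) : SL(2, ℤ) :=
  ⟨!![1 - N * a * c, N * a ^ 2; -(N * c ^ 2), 1 + N * a * c], by
    rw [Matrix.det_fin_two_of]; ring⟩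

theorem conjTranslate_mem_Gamma0 (N : ℕ) (a c : ℤ) : conjTranslate N a c ∈ Gamma0 N := by
  rw [Gamma0_mem]
  simp [conjTranslate]

theorem mapGL_conjTranslate_mul {g : GL (Fin 2) ℝ} (N : ℕ) {a c : ℤ}
    (ha : g 0 0 = (a : ℝ)) (hc : g 1 0 = (c : ℝ)) :
    (mapGL ℝ (conjTranslate N a c) : GL (Fin 2) ℝ) * g =
      g * Matrix.GeneralLinearGroup.upperRightHom ((N : ℝ) * g.val.det) := by
  ext i j
  fin_cases i <;> fin_cases j <;>
    simp [conjTranslate, Matrix.mul_apply, Fin.sum_univ_two, Matrix.det_fin_two, ha, hc] <;> ring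

theorem isCuspFnAll_cuspForm {N : ℕ} [NeZero N] {k : ℤ} (f : CuspForm (Gamma0 N) k) :
    IsCuspFnAll k ⇑f := by
  intro g hg
  refine ⟨f.holo'.slash k g, ?_, ?_⟩
  · -- periodicity
    obtain ⟨hdet, hint⟩ := id hg
    obtain ⟨a, ha⟩ := hint 0 0
    obtain ⟨c, hc⟩ := hint 1 0
    refine ⟨(N : ℝ) * g.val.det, mul_pos (by exact_mod_cast Nat.pos_of_ne_zero (NeZero.ne N)) hdet,
      fun z => ?_⟩
    rw [← slash_upperRightHom_apply k (⇑f ∣[k] g), ← SlashAction.slash_mul,
      ← mapGL_conjTranslate_mul N ha hc, SlashAction.slash_mul]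
    rw [SlashInvariantFormClass.slash_action_eq f _
      (Subgroup.mem_map_of_mem _ (conjTranslate_mem_Gamma0 N a c))]
  · -- zero at `i∞`
    have hc : IsCusp (g • (∞ : OnePoint ℝ)) ((Gamma0 N : Subgroup SL(2, ℤ)) : Subgroup (GL (Fin 2) ℝ)) := by
      rw [Subgroup.IsArithmetic.isCusp_iff_isCusp_SL2Z, isCusp_SL2Z_iff]
      exact smul_infty_mem_range_of_mem_M2pos hg
    exact f.zero_at_cusps' hc g rfl

end Fermat.Agent.S22x
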