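import Fermat.Agent.S22x.Defs

set_option autoImplicit false

namespace Fermat.Agent.S22x

open scoped MatrixGroups

theorem mapGL_val_apply (γ : SL(2, ℤ)) (i j : Fin 2) :
    (Matrix.SpecialLinearGroup.mapGL ℝ γ : GL (Fin 2) ℝ).val i j = ((γ.1 i j : ℤ) : ℝ) := by
  simp [Matrix.SpecialLinearGroup.mapGL]

theorem mapGL_val_det (γ : SL(2, ℤ)) :
    (Matrix.SpecialLinearGroup.mapGL ℝ γ : GL (Fin 2) ℝ).val.det = 1 := by
  rw [Matrix.det_fin_two, mapGL_val_apply, mapGL_val_apply, mapGL_val_apply, mapGL_val_apply]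
  have h := γ.2
  rw [Matrix.det_fin_two] at h
  exact_mod_cast h

theorem mapGL_mem_M2pos (γ : SL(2, ℤ)) :
    (Matrix.SpecialLinearGroup.mapGL ℝ γ : GL (Fin 2) ℝ) ∈ M2pos := by
  refine ⟨?_, fun i j => ⟨γ.1 i j, mapGL_val_apply γ i j⟩⟩
  rw [mapGL_val_det]
  exact one_pos

/-- Pure integer version of the Hermite step. -/
theorem exists_bezout_column (a c : ℤ) (h : ¬ (a = 0 ∧ c = 0)) :
    ∃ e a' c' x y : ℤ, e ≠ 0 ∧ a = e * a' ∧ c = e * c' ∧ a' * x + c' * y = 1 := by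
  have he0 : (Int.gcd a c : ℤ) ≠ 0 := by
    intro h0
    exact h (Int.gcd_eq_zero_iff.mp (by exact_mod_cast h0))
  obtain ⟨a', ha'⟩ : (Int.gcd a c : ℤ) ∣ a := Int.gcd_dvd_left a c
  obtain ⟨c', hc'⟩ : (Int.gcd a c : ℤ) ∣ c := Int.gcd_dvd_right a c
  refine ⟨Int.gcd a c, a', c', Int.gcdA a c, Int.gcdB a c, he0, ha', hc', ?_⟩
  have hbez : (Int.gcd a c : ℤ) = a * Int.gcdA a c + c * Int.gcdB a c := Int.gcd_eq_gcd_ab a c
  apply mul_left_cancel₀ he0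
  calc (Int.gcd a c : ℤ) * (a' * Int.gcdA a c + c' * Int.gcdB a c)
      = ((Int.gcd a c : ℤ) * a') * Int.gcdA a c + ((Int.gcd a c : ℤ) * c') * Int.gcdB a c := by
        ring
    _ = a * Int.gcdA a c + c * Int.gcdB a c := by rw [← ha', ← hc']
    _ = (Int.gcd a c : ℤ) * 1 := by rw [mul_one]; exact hbez.symm

/-- Hermite normal form: an integral matrix of positive determinant is an element of `SL(2, ℤ)`
times an upper triangular integral matrix of positive determinant. -/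
theorem exists_SL2Z_mul_upper {g : GL (Fin 2) ℝ} (hg : g ∈ M2pos) :
    ∃ (γ : SL(2, ℤ)) (b : GL (Fin 2) ℝ), b ∈ M2pos ∧ b 1 0 = 0 ∧
      g = Matrix.SpecialLinearGroup.mapGL ℝ γ * b := by
  obtain ⟨hdet, hint⟩ := hg
  choose m hm using hint
  have hdetR : g.val.det = ((m 0 0 * m 1 1 - m 0 1 * m 1 0 : ℤ) : ℝ) := by
    rw [Matrix.det_fin_two, hm 0 0, hm 0 1, hm 1 0, hm 1 1]
    push_cast
    ring
  have hdetZ : 0 < m 0 0 * m 1 1 - m 0 1 * m 1 0 := by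
    rw [hdetR] at hdet
    exact_mod_cast hdet
  have hac : ¬ (m 0 0 = 0 ∧ m 1 0 = 0) := by
    rintro ⟨h1, h2⟩
    rw [h1, h2] at hdetZ
    simp at hdetZ
  obtain ⟨e, a', c', x, y, he0, ha, hc, hone⟩ := exists_bezout_column (m 0 0) (m 1 0) hac
  -- γ = [[a', -y], [c', x]]
  let γ : SL(2, ℤ) := ⟨!![a', -y; c', x], by rw [Matrix.det_fin_two_of]; linarith⟩
  -- upper triangular part
  let B : Matrix (Fin 2) (Fin 2) ℝ :=
    !![(e : ℝ), ((x * m 0 1 + y * m 1 1 : ℤ) : ℝ); 0, ((a' * m 1 1 - c' * m 0 1 : ℤ) : ℝ)]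
  have hBdet : B.det = g.val.det := by
    rw [hdetR, Matrix.det_fin_two_of, ha, hc]
    push_cast
    ring
  have hone' : (a' : ℝ) * x + c' * y = 1 := by exact_mod_cast hone
  let b : GL (Fin 2) ℝ := Matrix.GeneralLinearGroup.mkOfDetNeZero B (by rw [hBdet]; exact hdet.ne')
  have hbval : b.val = B := rfl
  refine ⟨γ, b, ⟨?_, ?_⟩, ?_, ?_⟩
  · rw [hbval, hBdet]; exact hdet
  · intro i j
    rw [hbval]
    fin_cases i <;> fin_cases j
    · exact ⟨e, rfl⟩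
    · exact ⟨x * m 0 1 + y * m 1 1, rfl⟩
    · exact ⟨0, by simp [B]⟩
    · exact ⟨a' * m 1 1 - c' * m 0 1, rfl⟩
  · show b.val 1 0 = 0
    rw [hbval]
    rfl
  · apply Units.ext
    rw [Units.val_mul, hbval]
    ext i j
    rw [Matrix.mul_apply, Fin.sum_univ_two, mapGL_val_apply, mapGL_val_apply]
    fin_cases i <;> fin_cases j
    · show g.val 0 0 = ((a' : ℤ) : ℝ) * (e : ℝ) + ((-y : ℤ) : ℝ) * 0
      rw [hm 0 0, ha]; push_cast; ring
    · show g.val 0 1 = ((a' : ℤ) : ℝ) * ((x * m 0 1 + y * m 1 1 : ℤ) : ℝ)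
        + ((-y : ℤ) : ℝ) * ((a' * m 1 1 - c' * m 0 1 : ℤ) : ℝ)
      rw [hm 0 1]; push_cast
      linear_combination (-(m 0 1 : ℝ)) * hone'
    · show g.val 1 0 = ((c' : ℤ) : ℝ) * (e : ℝ) + ((x : ℤ) : ℝ) * 0
      rw [hm 1 0, hc]; push_cast; ring
    · show g.val 1 1 = ((c' : ℤ) : ℝ) * ((x * m 0 1 + y * m 1 1 : ℤ) : ℝ)
        + ((x : ℤ) : ℝ) * ((a' * m 1 1 - c' * m 0 1 : ℤ) : ℝ)
      rw [hm 1 1]; push_cast
      linear_combination (-(m 1 1 : ℝ)) * hone'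

end Fermat.Agent.S22x
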