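/-
S22 helper library: Bol's identity and the weight `-n` action `act`.
-/
import Fermat.Agent.S22x.Defs

set_option autoImplicit false

namespace Fermat.Agent.S22x

open UpperHalfPlane Derivative Polynomial CongruenceSubgroup
open scoped MatrixGroups ModularForm Manifold

/-! ### local iterate-of-`D` lemmas -/

theorem bol_mdiff_iterate {F : ℍ → ℂ} (hF : MDiff F) (m : ℕ) : MDiff (D^[m] F) := by
  induction m with
  | zero => simpa using hF
  | succ m ih =>
    rw [Function.iterate_succ_apply']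
    exact normalizedDerivOfComplex_mdifferentiable ih

theorem bol_iterate_smul {F : ℍ → ℂ} (hF : MDiff F) (c : ℂ) (m : ℕ) :
    D^[m] (c • F) = c • D^[m] F := by
  induction m with
  | zero => simp
  | succ m ih =>
    rw [Function.iterate_succ_apply', Function.iterate_succ_apply', ih,
      normalizedDerivOfComplex_smul _ _ (bol_mdiff_iterate hF m)]

theorem bol_iterate_add {F G : ℍ → ℂ} (hF : MDiff F) (hG : MDiff G) (m : ℕ) :
    D^[m] (F + G) = D^[m] F + D^[m] G := by
  induction m with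
  | zero => simp
  | succ m ih =>
    rw [Function.iterate_succ_apply', Function.iterate_succ_apply', Function.iterate_succ_apply',
      ih, normalizedDerivOfComplex_add _ _ (bol_mdiff_iterate hF m) (bol_mdiff_iterate hG m)]

/-! ### the automorphy factor as a function on `ℍ` -/

/-- The function `z ↦ denom g z` on `ℍ`. -/
noncomputable def bolJ (g : GL (Fin 2) ℝ) : ℍ → ℂ := fun z => denom g z

theorem bolJ_apply (g : GL (Fin 2) ℝ) (z : ℍ) : bolJ g z = denom g z := rfl

theorem bol_mdiff_J (g : GL (Fin 2) ℝ) : MDiff (bolJ g) := mdifferentiable_denom g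

/-- The constant `κ = c / (2πi)` with `c = g 1 0`. -/
noncomputable def bolKappa (g : GL (Fin 2) ℝ) : ℂ :=
  (2 * (Real.pi : ℂ) * Complex.I)⁻¹ * ((g 1 0 : ℝ) : ℂ)

theorem bol_D_J (g : GL (Fin 2) ℝ) : D (bolJ g) = fun _ => bolKappa g := by
  ext z
  have hd : HasDerivAt (fun w : ℂ => denom g w) ((g 1 0 : ℝ) : ℂ) (z : ℂ) := by
    simpa [denom] using ((hasDerivAt_id (z : ℂ)).const_mul ((g 1 0 : ℝ) : ℂ)).add_const
      ((g 1 1 : ℝ) : ℂ)
  have hcomp : (bolJ g ∘ ofComplex) =ᶠ[nhds (z : ℂ)] fun w : ℂ => denom g w := by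
    filter_upwards [isOpen_upperHalfPlaneSet.mem_nhds z.im_pos] with w hw
    simp [bolJ, ofComplex_apply_of_im_pos hw]
  simp only [normalizedDerivOfComplex, bolKappa]
  rw [(hd.congr_of_eventuallyEq hcomp).deriv]

theorem bol_sigma {g : GL (Fin 2) ℝ} (hg : 0 < g.val.det) (x : ℂ) : σ g x = x := by
  have hdet : g.det.val = g.val.det := Matrix.GeneralLinearGroup.val_det_apply g
  simp [σ, hdet, hg]

theorem bol_slash_apply (k : ℤ) (F : ℍ → ℂ) {g : GL (Fin 2) ℝ} (hg : 0 < g.val.det) (z : ℍ) :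
    (F ∣[k] g) z = F (g • z) * ((g.val.det : ℝ) : ℂ) ^ (k - 1) * denom g z ^ (-k) := by
  have hdet : g.det.val = g.val.det := Matrix.GeneralLinearGroup.val_det_apply g
  rw [ModularForm.slash_apply, bol_sigma hg, hdet, abs_of_pos hg]

/-- Weight shift: `F ∣[k-1] g = det⁻¹ • (j * F ∣[k] g)`. -/
theorem bol_slash_pred (k : ℤ) (F : ℍ → ℂ) {g : GL (Fin 2) ℝ} (hg : 0 < g.val.det) :
    F ∣[k - 1] g = ((g.val.det : ℂ)⁻¹) • (bolJ g * (F ∣[k] g)) := by
  have hdetℂ : ((g.val.det : ℝ) : ℂ) ≠ 0 := Complex.ofReal_ne_zero.mpr hg.ne'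
  ext z
  have hz := denom_ne_zero g z
  simp only [Pi.smul_apply, Pi.mul_apply, smul_eq_mul, bolJ_apply, bol_slash_apply _ _ hg]
  rw [show -(k - 1) = -k + 1 by ring, zpow_add_one₀ hz, zpow_sub_one₀ hdetℂ]
  ring

/-- Leibniz rule against the automorphy factor `j` (which satisfies `D j = κ`, `D (D j) = 0`). -/
theorem bol_leibniz (g : GL (Fin 2) ℝ) {G : ℍ → ℂ} (hG : MDiff G) (m : ℕ) :
    D^[m + 1] (bolJ g * G) =
      bolJ g * D^[m + 1] G + (((m : ℂ) + 1) * bolKappa g) • D^[m] G := by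
  induction m with
  | zero =>
    simp only [Function.iterate_succ, Function.iterate_zero, Function.comp_apply, id_eq]
    rw [normalizedDerivOfComplex_mul _ _ (bol_mdiff_J g) hG, bol_D_J]
    ext z
    simp
    ring
  | succ m ih =>
    rw [Function.iterate_succ_apply', ih]
    have h1 : MDiff (D^[m + 1] G) := bol_mdiff_iterate hG _
    have h2 : MDiff (D^[m] G) := bol_mdiff_iterate hG _
    rw [normalizedDerivOfComplex_add _ _ ((bol_mdiff_J g).mul h1) (h2.const_smul _),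
      normalizedDerivOfComplex_mul _ _ (bol_mdiff_J g) h1,
      normalizedDerivOfComplex_smul _ _ h2, bol_D_J,
      ← Function.iterate_succ_apply' D (m + 1) G, ← Function.iterate_succ_apply' D m G]
    ext z
    simp
    ring

/-- **Bol's identity.** -/
theorem bol (n : ℕ) {F : ℍ → ℂ} (hF : MDiff F) {g : GL (Fin 2) ℝ} (hg : 0 < g.val.det) :
    D^[n + 1] (F ∣[(-(n : ℤ))] g) =
      ((g.val.det : ℂ)⁻¹) ^ (n + 1) • ((D^[n + 1] F) ∣[(n : ℤ) + 2] g) := by
  have hdetℂ : ((g.val.det : ℝ) : ℂ) ≠ 0 := Complex.ofReal_ne_zero.mpr hg.ne'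
  induction n generalizing F with
  | zero =>
    simp only [Function.iterate_succ, Function.iterate_zero, Function.comp_apply, id_eq]
    rw [normalizedDerivOfComplex_slash hF hg]
    ext z
    simp
  | succ n ih =>
    set G : ℍ → ℂ := F ∣[(-(n : ℤ))] g with hGdef
    set H : ℍ → ℂ := D^[n + 1] F with hHdef
    have hG : MDiff G := hF.slash _ g
    have hH : MDiff H := bol_mdiff_iterate hF _
    have hHs : MDiff (H ∣[(n : ℤ) + 2] g) := hH.slash _ g
    have e1 : F ∣[(-((n + 1 : ℕ) : ℤ))] g = ((g.val.det : ℂ)⁻¹) • (bolJ g * G) := by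
      rw [show (-((n + 1 : ℕ) : ℤ)) = (-(n : ℤ)) - 1 by push_cast; ring]
      exact bol_slash_pred _ _ hg
    have e2 : D^[n + 1 + 1] F = D H := Function.iterate_succ_apply' D (n + 1) F
    have e3 : (D H) ∣[((n + 1 : ℕ) : ℤ) + 2] g =
        ((g.val.det : ℂ)⁻¹) • (bolJ g * ((D H) ∣[(n : ℤ) + 2 + 2] g)) := by
      rw [show ((n + 1 : ℕ) : ℤ) + 2 = ((n : ℤ) + 2 + 2) - 1 by push_cast; ring]
      exact bol_slash_pred _ _ hg
    have e4 : D^[n + 1 + 1] G = D (D^[n + 1] G) := Function.iterate_succ_apply' D (n + 1) G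
    have e5 : D^[n + 1] G = ((g.val.det : ℂ)⁻¹) ^ (n + 1) • (H ∣[(n : ℤ) + 2] g) := ih hF
    rw [e1, bol_iterate_smul ((bol_mdiff_J g).mul hG), bol_leibniz g hG (n + 1), e4, e5,
      normalizedDerivOfComplex_smul _ _ hHs, normalizedDerivOfComplex_slash hH hg, e2, e3]
    ext z
    have hz := denom_ne_zero g z
    simp only [Pi.smul_apply, Pi.add_apply, Pi.mul_apply, smul_eq_mul, bolJ_apply, bolKappa]
    push_cast
    generalize ((g.val.det : ℝ) : ℂ) = δ at hdetℂ ⊢
    simp only [inv_pow, pow_succ]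
    field_simp
    ring

/-! ### the action `act` -/

theorem act_apply (n : ℕ) (g : GL (Fin 2) ℝ) (F : ℍ → ℂ) (z : ℍ) :
    act n g F z = denom g z ^ n * F (g • z) := rfl

theorem act_eq_smul_slash (n : ℕ) (F : ℍ → ℂ) {g : GL (Fin 2) ℝ} (hg : 0 < g.val.det) :
    act n g F = ((g.val.det : ℂ)) ^ (n + 1) • (F ∣[(-(n : ℤ))] g) := by
  have hdetℂ : ((g.val.det : ℝ) : ℂ) ≠ 0 := Complex.ofReal_ne_zero.mpr hg.ne'
  ext z
  simp only [act_apply, Pi.smul_apply, smul_eq_mul, bol_slash_apply _ _ hg, neg_neg,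
    zpow_natCast]
  rw [show (-(n : ℤ)) - 1 = -((n + 1 : ℕ) : ℤ) by push_cast; ring, zpow_neg, zpow_natCast]
  field_simp

theorem mdiff_act (n : ℕ) {F : ℍ → ℂ} (hF : MDiff F) {g : GL (Fin 2) ℝ} (hg : 0 < g.val.det) :
    MDiff (act n g F) := by
  rw [act_eq_smul_slash n F hg]
  exact (hF.slash _ g).const_smul _

theorem iterate_D_act (n : ℕ) {F : ℍ → ℂ} (hF : MDiff F) {g : GL (Fin 2) ℝ}
    (hg : 0 < g.val.det) :
    D^[n + 1] (act n g F) = (D^[n + 1] F) ∣[(n : ℤ) + 2] g := by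
  have hdetℂ : ((g.val.det : ℝ) : ℂ) ≠ 0 := Complex.ofReal_ne_zero.mpr hg.ne'
  rw [act_eq_smul_slash n F hg, bol_iterate_smul (hF.slash _ g), bol n hF hg, smul_smul,
    ← mul_pow, mul_inv_cancel₀ hdetℂ, one_pow, one_smul]

/-- NB: false without the positivity hypothesis on `det g'` (complex conjugation enters the
cocycle relation for the automorphy factor otherwise). -/
theorem act_mul (n : ℕ) (g : GL (Fin 2) ℝ) {g' : GL (Fin 2) ℝ} (hg' : 0 < g'.val.det)
    (F : ℍ → ℂ) : act n (g * g') F = act n g' (act n g F) := by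
  ext z
  simp only [act_apply, denom_cocycle_σ g g' z, bol_sigma hg', mul_smul, mul_pow]
  ring

theorem act_one (n : ℕ) (F : ℍ → ℂ) : act n 1 F = F := by
  ext z
  simp [act_apply, denom]

theorem act_add (n : ℕ) (g : GL (Fin 2) ℝ) (F G : ℍ → ℂ) :
    act n g (F + G) = act n g F + act n g G := by
  ext z
  simp only [act_apply, Pi.add_apply]
  ring

theorem act_sub (n : ℕ) (g : GL (Fin 2) ℝ) (F G : ℍ → ℂ) :
    act n g (F - G) = act n g F - act n g G := by
  ext z
  simp only [act_apply, Pi.sub_apply]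
  ring

theorem act_smul (n : ℕ) (g : GL (Fin 2) ℝ) (c : ℂ) (F : ℍ → ℂ) :
    act n g (c • F) = c • act n g F := by
  ext z
  simp only [act_apply, Pi.smul_apply, smul_eq_mul]
  ring

/-- zero at `i∞` is preserved by upper triangular `g` with positive determinant. -/
theorem isZeroAtImInfty_act (n : ℕ) {F : ℍ → ℂ} (hF : IsZeroAtImInfty F) {g : GL (Fin 2) ℝ}
    (hg : 0 < g.val.det) (hg10 : g 1 0 = 0) : IsZeroAtImInfty (act n g F) := by
  rw [act_eq_smul_slash n F hg]
  have h := (UpperHalfPlane.IsZeroAtImInfty.slash (-(n : ℤ)) hg10 hF)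
  have h2 := Filter.Tendsto.const_smul h (((g.val.det : ℝ) : ℂ) ^ (n + 1))
  rw [smul_zero] at h2
  exact h2

end Fermat.Agent.S22x
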