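import Mathlib

set_option autoImplicit false

open UpperHalfPlane hiding I
open Real Complex
open scoped Manifold MatrixGroups ModularForm Topology
open Derivative

namespace Fermat.Agent.S22x

/-- Antiderivative of a complex polynomial, with degree control. -/
theorem exists_polynomial_antideriv (n : ℕ) (p : Polynomial ℂ) (hp : p.degree < n) :
    ∃ P : Polynomial ℂ, Polynomial.derivative P = p ∧ P.degree < (n + 1 : ℕ) := by
  classical
  refine ⟨∑ j ∈ Finset.range n, Polynomial.monomial (j + 1) (p.coeff j / ((j : ℂ) + 1)), ?_, ?_⟩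
  · rw [map_sum]
    ext m
    rw [Polynomial.finsetSum_coeff]
    simp only [Polynomial.derivative_monomial, Polynomial.coeff_monomial]
    have hne : ∀ j : ℕ, ((j : ℂ) + 1) ≠ 0 := fun j => by exact_mod_cast Nat.succ_ne_zero j
    by_cases hm : m < n
    · rw [Finset.sum_eq_single m]
      · rw [if_pos (Nat.add_sub_cancel m 1)]
        push_cast
        field_simp [hne m]
      · intro j _ hjm
        rw [if_neg]
        simpa using hjm
      · intro hmn
        exact absurd (Finset.mem_range.mpr hm) hmn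
    · rw [Finset.sum_eq_zero]
      · symm
        exact Polynomial.coeff_eq_zero_of_degree_lt (lt_of_lt_of_le hp (by exact_mod_cast not_lt.mp hm))
      · intro j hj
        have : j ≠ m := fun hjm => hm (hjm ▸ Finset.mem_range.mp hj)
        rw [if_neg]
        simpa using this
  · refine lt_of_le_of_lt (Polynomial.degree_sum_le _ _) ?_
    rw [Finset.sup_lt_iff (by exact_mod_cast WithBot.bot_lt_coe _)]
    intro j hj
    refine lt_of_le_of_lt (Polynomial.degree_monomial_le _ _) ?_
    have := Finset.mem_range.mp hj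
    exact_mod_cast Nat.succ_lt_succ this

/-- A holomorphic function on the upper half plane whose `n`-th normalized derivative vanishes
is a polynomial of degree `< n`. -/
theorem exists_polynomial_of_iterate_D_eq_zero (n : ℕ) (F : ℍ → ℂ) (hF : MDiff F)
    (h : D^[n] F = 0) :
    ∃ p : Polynomial ℂ, p.degree < n ∧ ∀ z : ℍ, F z = p.eval (z : ℂ) := by
  induction n generalizing F with
  | zero =>
    refine ⟨0, by simp, fun z => ?_⟩
    simp only [Function.iterate_zero, id_eq] at h
    simp [h]
  | succ n ih =>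
    rw [Function.iterate_succ_apply] at h
    obtain ⟨p, hpdeg, hp⟩ := ih (D F) (normalizedDerivOfComplex_mdifferentiable hF) h
    have h2pi : (2 * π * I : ℂ) ≠ 0 := by
      simp [Real.pi_ne_zero, I_ne_zero]
    obtain ⟨P, hPder, hPdeg⟩ := exists_polynomial_antideriv n (Polynomial.C (2 * π * I) * p) (by
      rw [Polynomial.degree_C_mul h2pi]; exact hpdeg)
    have hFd : DifferentiableOn ℂ (F ∘ ofComplex) upperHalfPlaneSet :=
      UpperHalfPlane.mdifferentiable_iff.mp hF
    have hPd : DifferentiableOn ℂ (fun z : ℂ => P.eval z) upperHalfPlaneSet :=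
      P.differentiable.differentiableOn
    have hderiv : Set.EqOn (deriv (F ∘ ofComplex)) (deriv (fun z : ℂ => P.eval z))
        upperHalfPlaneSet := by
      intro z hz
      have h1 := hp ⟨z, hz⟩
      simp only [normalizedDerivOfComplex] at h1
      change (2 * π * I)⁻¹ * deriv (F ∘ ofComplex) z = _ at h1
      rw [Polynomial.deriv, hPder, Polynomial.eval_mul, Polynomial.eval_C]
      change _ = 2 * π * I * Polynomial.eval z p
      rw [← h1]
      field_simp
    obtain ⟨a, ha⟩ := isOpen_upperHalfPlaneSet.exists_eq_add_of_deriv_eq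
      (Convex.isPreconnected (convex_halfSpace_im_gt 0)) hFd hPd hderiv
    refine ⟨P + Polynomial.C a, ?_, fun z => ?_⟩
    · refine lt_of_le_of_lt (Polynomial.degree_add_le _ _) (max_lt hPdeg ?_)
      refine lt_of_le_of_lt Polynomial.degree_C_le ?_
      exact_mod_cast Nat.succ_pos n
    · have := ha z.2
      simp only [Function.comp_apply, ofComplex_apply] at this
      rw [this]
      simp

section Growth

open Filter Asymptotics Function.Periodic

/-- Removable singularity at the cusp with a little-o growth hypothesis instead of boundedness. -/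
theorem boundedAtFilter_of_isLittleO_exp {h : ℝ} {f : ℂ → ℂ} (hh : 0 < h)
    (hf : Function.Periodic f h)
    (h_hol : ∀ᶠ z in comap Complex.im atTop, DifferentiableAt ℂ f z)
    (h_o : f =o[comap Complex.im atTop] fun z => Real.exp (2 * π * Complex.im z / h)) :
    BoundedAtFilter (comap Complex.im atTop) f := by
  have hF1 : (f ∘ invQParam h) =o[𝓝[≠] 0] (fun q : ℂ => q⁻¹) := by
    have h1 := h_o.comp_tendsto (invQParam_tendsto hh)
    refine (h1.congr' (EventuallyEq.refl _ _) ?_).of_norm_right
    filter_upwards [self_mem_nhdsWithin] with q hq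
    have hq0 : ‖q‖ ≠ 0 := norm_ne_zero_iff.mpr hq
    simp only [Function.comp_apply, Function.Periodic.im_invQParam, norm_inv]
    rw [show 2 * π * (-h / (2 * π) * Real.log ‖q‖) / h = -Real.log ‖q‖ by
      field_simp, Real.exp_neg, Real.exp_log (norm_pos_iff.mpr hq)]
  have hF2 : (cuspFunction h f) =o[𝓝[≠] 0] (fun q : ℂ => q⁻¹) := by
    refine hF1.congr' ?_ (EventuallyEq.refl _ _)
    filter_upwards [self_mem_nhdsWithin] with q hq
    rw [cuspFunction_eq_of_nonzero _ _ hq, Function.comp_apply]
  have hc : (fun _ : ℂ => cuspFunction h f 0) =o[𝓝[≠] 0] (fun q : ℂ => q⁻¹) := by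
    rw [isLittleO_const_left]
    right
    exact tendsto_norm_cobounded_atTop.comp tendsto_inv₀_nhdsNE_zero
  have ho : (fun q => cuspFunction h f q - cuspFunction h f 0) =o[𝓝[≠] (0:ℂ)]
      fun q => (q - 0)⁻¹ := by
    simpa using hF2.sub hc
  have hd := eventually_differentiableAt_cuspFunction_nhds_ne_zero hh hf h_hol
  have T := tendsto_limUnder_of_differentiable_on_punctured_nhds_of_isLittleO hd ho
  have T2 : Tendsto f (comap Complex.im atTop) (𝓝 (limUnder (𝓝[≠] 0) (cuspFunction h f))) := by
    refine (T.comp (qParam_tendsto hh)).congr fun z => ?_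
    rw [Function.comp_apply, eq_cuspFunction hh.ne' hf]
  exact T2.isBigO_one ℝ


/-- One integration step: a periodic holomorphic function on the upper half plane whose derivative
has polynomial growth of order `e` in `Complex.im z` has polynomial growth of order `e + 1`. -/
theorem polyGrowth_of_deriv_polyGrowth {h : ℝ} {f : ℂ → ℂ} (hh : 0 < h)
    (hf : Function.Periodic f h) (hd : DifferentiableOn ℂ f {z | 0 < Complex.im z})
    {A C : ℝ} (hA : 0 < A) (e : ℕ)
    (hbd : ∀ z : ℂ, A ≤ Complex.im z → ‖deriv f z‖ ≤ C * (1 + Complex.im z) ^ e) :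
    ∃ C' : ℝ, ∀ z : ℂ, A ≤ Complex.im z → ‖f z‖ ≤ C' * (1 + Complex.im z) ^ (e + 1) := by
  have hopen : IsOpen {z : ℂ | 0 < Complex.im z} := isOpen_lt continuous_const Complex.continuous_im
  have hdiffAt : ∀ z : ℂ, A ≤ Complex.im z → DifferentiableAt ℂ f z := fun z hz =>
    (hd z (lt_of_lt_of_le hA hz)).differentiableAt (hopen.mem_nhds (lt_of_lt_of_le hA hz))
  -- bound on the base line
  have hcont : ContinuousOn (fun x : ℝ => f (x + A * I)) (Set.Icc 0 h) := by
    intro x _
    have h1 : ContinuousAt f (x + A * I) := (hdiffAt _ (by simp)).continuousAt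
    have h2 : ContinuousAt (fun x : ℝ => (x : ℂ) + A * I) x := by fun_prop
    exact (ContinuousAt.comp (f := fun x : ℝ => (x : ℂ) + A * I) h1 h2).continuousWithinAt
  obtain ⟨B, hB⟩ := isCompact_Icc.exists_bound_of_continuousOn hcont
  have hper : Function.Periodic (fun x : ℝ => f (x + A * I)) h := by
    intro x
    simp only
    have := hf (x + A * I)
    rw [← this]
    congr 1
    push_cast
    ring
  have hbase : ∀ x : ℝ, ‖f (x + A * I)‖ ≤ B := by
    intro x
    obtain ⟨y, hy, hxy⟩ := hper.exists_mem_Ico₀ hh x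
    rw [hxy]
    exact hB y ⟨hy.1, hy.2.le⟩
  have hC0 : 0 ≤ max C 0 := le_max_right _ _
  refine ⟨max B 0 + max C 0, fun z hz => ?_⟩
  set y := Complex.im z with hy
  set z₀ : ℂ := (re z : ℝ) + A * I with hz₀
  have hz₀im : Complex.im z₀ = A := by simp [hz₀]
  have h1y : 1 ≤ 1 + y := by linarith
  -- the strip
  let S : Set ℂ := {w | A ≤ Complex.im w ∧ Complex.im w ≤ y}
  have hS : Convex ℝ S := by
    have h1 : Convex ℝ {w : ℂ | A ≤ Complex.im w} := convex_halfSpace_im_ge A
    have h2 : Convex ℝ {w : ℂ | Complex.im w ≤ y} := convex_halfSpace_im_le y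
    exact h1.inter h2
  have hderiv : ∀ w ∈ S, ‖deriv f w‖ ≤ max C 0 * (1 + y) ^ e := by
    intro w hw
    refine (hbd w hw.1).trans ?_
    have h1 : (1 + Complex.im w) ^ e ≤ (1 + y) ^ e :=
      pow_le_pow_left₀ (by linarith [hw.1]) (by linarith [hw.2]) e
    calc C * (1 + Complex.im w) ^ e ≤ max C 0 * (1 + Complex.im w) ^ e :=
          mul_le_mul_of_nonneg_right (le_max_left _ _) (pow_nonneg (by linarith [hw.1]) e)
      _ ≤ max C 0 * (1 + y) ^ e := mul_le_mul_of_nonneg_left h1 hC0
  have hmv := Convex.norm_image_sub_le_of_norm_deriv_le (f := f) (s := S)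
    (fun w hw => hdiffAt w hw.1) hderiv hS (x := z₀) (y := z)
    ⟨by rw [hz₀im], by rw [hz₀im]; exact hz⟩ ⟨hz, le_refl _⟩
  have hdist : ‖z - z₀‖ ≤ 1 + y := by
    have : z - z₀ = ((y - A : ℝ) : ℂ) * I := by
      apply Complex.ext <;> simp [hz₀, hy]
    rw [this, norm_mul, Complex.norm_I, mul_one, Complex.norm_real, Real.norm_eq_abs,
      abs_of_nonneg (by linarith)]
    linarith
  have hfz₀ : ‖f z₀‖ ≤ max B 0 := (hbase (re z)).trans (le_max_left _ _)
  have hpow1 : (1 : ℝ) ≤ (1 + y) ^ (e + 1) := one_le_pow₀ h1y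
  calc ‖f z‖ = ‖(f z - f z₀) + f z₀‖ := by ring_nf
    _ ≤ ‖f z - f z₀‖ + ‖f z₀‖ := norm_add_le _ _
    _ ≤ max C 0 * (1 + y) ^ e * ‖z - z₀‖ + max B 0 := add_le_add hmv hfz₀
    _ ≤ max C 0 * (1 + y) ^ e * (1 + y) + max B 0 * (1 + y) ^ (e + 1) := by
        refine add_le_add (mul_le_mul_of_nonneg_left hdist (by positivity)) ?_
        exact le_mul_of_one_le_right (le_max_right _ _) hpow1
    _ = (max B 0 + max C 0) * (1 + y) ^ (e + 1) := by ring


/-- Global periodicity of `F ∘ ofComplex` from periodicity of `F` on the upper half plane. -/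
theorem periodic_comp_ofComplex_of_vadd {F : ℍ → ℂ} {h : ℝ} (hper : ∀ z : ℍ, F (h +ᵥ z) = F z) :
    Function.Periodic (F ∘ ofComplex) h := by
  intro w
  by_cases! hw : 0 < Complex.im w
  · have : 0 < Complex.im (w + h) := by simp [hw]
    simp only [Function.comp_apply, ofComplex_apply_of_im_pos this, ofComplex_apply_of_im_pos hw]
    rw [← hper ⟨w, hw⟩]
    congr 1
    ext
    simp [add_comm]
  · have : Complex.im (w + h) ≤ 0 := by simpa using hw
    simp [ofComplex_apply_of_im_nonpos this, ofComplex_apply_of_im_nonpos hw]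

/-- `D F` is periodic if `F` is. -/
theorem D_periodic {F : ℍ → ℂ} {h : ℝ} (hper : ∀ z : ℍ, F (h +ᵥ z) = F z) (z : ℍ) :
    D F (h +ᵥ z) = D F z := by
  have hp := periodic_comp_ofComplex_of_vadd hper
  simp only [normalizedDerivOfComplex]
  congr 1
  have h1 : ((h +ᵥ z : ℍ) : ℂ) = (z : ℂ) + h := by simp [add_comm]
  rw [h1, ← deriv_comp_add_const]
  congr 1
  funext w
  exact hp w

/-- Polynomial growth predicate (in `Complex.im z`) for functions on the upper half plane. -/
def PolyGrowth (F : ℍ → ℂ) (e : ℕ) : Prop :=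
  ∃ C A : ℝ, 0 < A ∧ ∀ z : ℍ, A ≤ z.im → ‖F z‖ ≤ C * (1 + z.im) ^ e

theorem polyGrowth_of_D_polyGrowth {F : ℍ → ℂ} (hF : MDiff F) {h : ℝ} (hh : 0 < h)
    (hper : ∀ z : ℍ, F (h +ᵥ z) = F z) (e : ℕ) (hg : PolyGrowth (D F) e) :
    PolyGrowth F (e + 1) := by
  obtain ⟨C, A, hA, hbd⟩ := hg
  have hd : DifferentiableOn ℂ (F ∘ ofComplex) {z | 0 < Complex.im z} :=
    UpperHalfPlane.mdifferentiable_iff.mp hF
  have h2pi : ‖(2 * π * I : ℂ)‖ = 2 * π := by
    simp [abs_of_pos Real.pi_pos]
  obtain ⟨C', hC'⟩ := polyGrowth_of_deriv_polyGrowth hh (periodic_comp_ofComplex_of_vadd hper) hd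
    hA e (C := 2 * π * C) (fun z hz => by
      have hz0 : 0 < Complex.im z := lt_of_lt_of_le hA hz
      have h1 := hbd ⟨z, hz0⟩ hz
      simp only [normalizedDerivOfComplex] at h1
      change ‖(2 * π * I : ℂ)⁻¹ * deriv (F ∘ ofComplex) z‖ ≤ C * (1 + Complex.im z) ^ e at h1
      rw [norm_mul, norm_inv, h2pi] at h1
      have h2pos : (0 : ℝ) < 2 * π := by positivity
      rw [inv_mul_le_iff₀ h2pos] at h1
      linarith)
  refine ⟨C', A, hA, fun z hz => ?_⟩
  have := hC' (z : ℂ) hz
  simpa [Function.comp_apply, ofComplex_apply] using this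

theorem polyGrowth_of_iterate_D_polyGrowth (m : ℕ) {F : ℍ → ℂ} (hF : MDiff F) {h : ℝ} (hh : 0 < h)
    (hper : ∀ z : ℍ, F (h +ᵥ z) = F z) (e : ℕ) (hg : PolyGrowth (D^[m] F) e) :
    PolyGrowth F (e + m) := by
  induction m generalizing F e with
  | zero => simpa using hg
  | succ m ih =>
    rw [Function.iterate_succ_apply] at hg
    have h1 := ih (normalizedDerivOfComplex_mdifferentiable hF) (D_periodic hper) e hg
    have h2 := polyGrowth_of_D_polyGrowth hF hh hper (e + m) h1
    simpa [add_assoc] using h2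

/-- **Growth lemma**: a holomorphic periodic function on the upper half plane, some iterated
normalized derivative of which is bounded at `i∞`, is itself bounded at `i∞`. -/
theorem isBoundedAtImInfty_of_iterate_D {F : ℍ → ℂ} (hF : MDiff F) {h : ℝ} (hh : 0 < h)
    (hper : ∀ z : ℍ, F (h +ᵥ z) = F z) (m : ℕ) (hbd : IsBoundedAtImInfty (D^[m] F)) :
    IsBoundedAtImInfty F := by
  obtain ⟨M, A, hMA⟩ := UpperHalfPlane.isBoundedAtImInfty_iff.mp hbd
  have hg0 : PolyGrowth (D^[m] F) 0 :=
    ⟨M, max A 1, by positivity, fun z hz => by simpa using hMA z (le_trans (le_max_left _ _) hz)⟩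
  obtain ⟨C, A', hA', hC⟩ := polyGrowth_of_iterate_D_polyGrowth m hF hh hper 0 hg0
  rw [zero_add] at hC
  have hd : DifferentiableOn ℂ (F ∘ ofComplex) {z | 0 < Complex.im z} :=
    UpperHalfPlane.mdifferentiable_iff.mp hF
  have hopen : IsOpen {z : ℂ | 0 < Complex.im z} := isOpen_lt continuous_const Complex.continuous_im
  have h_hol : ∀ᶠ z in comap Complex.im atTop, DifferentiableAt ℂ (F ∘ ofComplex) z := by
    refine (tendsto_comap.eventually (eventually_gt_atTop 0)).mono fun z hz => ?_
    exact (hd z hz).differentiableAt (hopen.mem_nhds hz)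
  have hO : (F ∘ ofComplex) =O[comap Complex.im atTop] fun z : ℂ => (1 + Complex.im z) ^ m := by
    refine IsBigO.of_bound C ?_
    refine (tendsto_comap.eventually (eventually_ge_atTop A')).mono fun z hz => ?_
    have hz0 : 0 < Complex.im z := lt_of_lt_of_le hA' hz
    have := hC ⟨z, hz0⟩ hz
    simp only [Function.comp_apply, ofComplex_apply_of_im_pos hz0]
    refine this.trans ?_
    rw [Real.norm_eq_abs, abs_of_nonneg (pow_nonneg (by linarith) m)]
    rfl
  have ho : (fun z : ℂ => (1 + Complex.im z) ^ m) =o[comap Complex.im atTop]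
      fun z => Real.exp (2 * π * Complex.im z / h) := by
    have hb : 0 < 2 * π / h := by positivity
    have h1 := (isLittleO_pow_exp_pos_mul_atTop m hb).comp_tendsto
      (tendsto_atTop_add_const_left atTop (1 : ℝ) tendsto_id)
    have h2 := h1.comp_tendsto ((tendsto_comap : Tendsto Complex.im (comap Complex.im atTop) atTop))
    refine h2.trans_isBigO ?_
    refine IsBigO.of_bound (Real.exp (2 * π / h)) (Eventually.of_forall fun z => ?_)
    simp only [Function.comp_apply, id_eq, Real.norm_eq_abs, Real.abs_exp]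
    rw [← Real.exp_add]
    apply le_of_eq
    congr 1
    field_simp
  have hB := boundedAtFilter_of_isLittleO_exp hh (periodic_comp_ofComplex_of_vadd hper) h_hol
    (hO.trans_isLittleO ho)
  obtain ⟨c, hc⟩ := hB.bound
  rw [eventually_comap] at hc
  obtain ⟨A'', hA''⟩ := eventually_atTop.mp hc
  rw [UpperHalfPlane.isBoundedAtImInfty_iff]
  refine ⟨c, A'', fun z hz => ?_⟩
  have := hA'' z.im hz (z : ℂ) rfl
  simpa [Function.comp_apply, ofComplex_apply] using this

end Growth

end Fermat.Agent.S22x
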