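import Fermat.Agent.S22x.Defs
import Fermat.Agent.S22x.PolyOfDeriv

/-!
# S22x: calculus of the iterated normalised derivative `D^[m]` on the upper half plane
-/

set_option autoImplicit false

namespace Fermat.Agent.S22x

open UpperHalfPlane Derivative Polynomial Filter Topology
open scoped MatrixGroups ModularForm Manifold

theorem mdiff_iterate_D {F : ℍ → ℂ} (hF : MDiff F) (m : ℕ) : MDiff (D^[m] F) := by
  induction m generalizing F with
  | zero => simpa using hF
  | succ m ih =>
    rw [Function.iterate_succ_apply]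
    exact ih (normalizedDerivOfComplex_mdifferentiable hF)

theorem iterate_D_add {F G : ℍ → ℂ} (hF : MDiff F) (hG : MDiff G) (m : ℕ) :
    D^[m] (F + G) = D^[m] F + D^[m] G := by
  induction m generalizing F G with
  | zero => simp
  | succ m ih =>
    rw [Function.iterate_succ_apply, Function.iterate_succ_apply, Function.iterate_succ_apply,
      normalizedDerivOfComplex_add F G hF hG]
    exact ih (normalizedDerivOfComplex_mdifferentiable hF)
      (normalizedDerivOfComplex_mdifferentiable hG)

theorem iterate_D_sub {F G : ℍ → ℂ} (hF : MDiff F) (hG : MDiff G) (m : ℕ) :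
    D^[m] (F - G) = D^[m] F - D^[m] G := by
  induction m generalizing F G with
  | zero => simp
  | succ m ih =>
    rw [Function.iterate_succ_apply, Function.iterate_succ_apply, Function.iterate_succ_apply,
      normalizedDerivOfComplex_sub F G hF hG]
    exact ih (normalizedDerivOfComplex_mdifferentiable hF)
      (normalizedDerivOfComplex_mdifferentiable hG)

theorem iterate_D_smul {F : ℍ → ℂ} (hF : MDiff F) (c : ℂ) (m : ℕ) :
    D^[m] (c • F) = c • D^[m] F := by
  induction m generalizing F with
  | zero => simp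
  | succ m ih =>
    rw [Function.iterate_succ_apply, Function.iterate_succ_apply,
      normalizedDerivOfComplex_smul c F hF]
    exact ih (normalizedDerivOfComplex_mdifferentiable hF)

/-- a holomorphic function on `ℍ` killed by `D^[m]` is a polynomial of degree `< m`. -/
theorem exists_poly_of_iterate_D_eq_zero {F : ℍ → ℂ} (hF : MDiff F) (m : ℕ)
    (h : D^[m] F = 0) :
    ∃ p : Polynomial ℂ, p.degree < m ∧ ∀ z : ℍ, F z = p.eval (z : ℂ) :=
  exists_polynomial_of_iterate_D_eq_zero m F hF h

theorem poly_eq_of_eval_eq_on_upperHalfPlane {p q : Polynomial ℂ}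
    (h : ∀ z : ℍ, p.eval (z : ℂ) = q.eval (z : ℂ)) : p = q := by
  refine Polynomial.eq_of_infinite_eval_eq p q ?_
  have hinf : (Set.range fun n : ℕ => ((n : ℂ) + Complex.I)).Infinite := by
    refine Set.infinite_range_of_injective ?_
    intro a b hab
    have := congrArg Complex.re hab
    simpa using this
  refine hinf.mono ?_
  rintro _ ⟨n, rfl⟩
  have him : 0 < ((n : ℂ) + Complex.I).im := by simp
  exact h ⟨(n : ℂ) + Complex.I, him⟩

theorem poly_eq_zero_of_isZeroAtImInfty {p : Polynomial ℂ}
    (h : IsZeroAtImInfty (fun z : ℍ => p.eval (z : ℂ))) : p = 0 := by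
  -- the path `y ↦ i y`
  have hpath : Tendsto (fun y : ℝ => (⟨(max y 1 : ℝ) * Complex.I, by
      simp [lt_max_of_lt_right one_pos]⟩ : ℍ)) atTop atImInfty := by
    rw [atImInfty_basis.tendsto_right_iff]
    intro A _
    filter_upwards [eventually_ge_atTop A] with y hy
    simp only [Set.mem_preimage, Set.mem_Ici]
    change A ≤ (((max y 1 : ℝ) : ℂ) * Complex.I).im
    simp only [Complex.mul_im, Complex.ofReal_re, Complex.I_im, mul_one, Complex.ofReal_im,
      Complex.I_re, mul_zero, add_zero]
    exact hy.trans (le_max_left _ _)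
  have h0 : Tendsto (fun y : ℝ => p.eval (((max y 1 : ℝ) : ℂ) * Complex.I)) atTop (𝓝 0) :=
    h.comp hpath
  by_contra hp
  by_cases hdeg : 0 < p.degree
  · -- norm tends to infinity along the path: contradiction
    have hz : Tendsto (fun y : ℝ => ‖((max y 1 : ℝ) : ℂ) * Complex.I‖) atTop atTop := by
      have : ∀ y : ℝ, ‖((max y 1 : ℝ) : ℂ) * Complex.I‖ = max y 1 := by
        intro y
        rw [norm_mul, Complex.norm_I, mul_one, Complex.norm_real, Real.norm_eq_abs,
          abs_of_pos (lt_max_of_lt_right one_pos)]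
      simp only [this]
      exact tendsto_atTop_mono (fun y => le_max_left y 1) tendsto_id
    have hinf := p.tendsto_norm_atTop hdeg hz
    have hn0 : Tendsto (fun y : ℝ => ‖p.eval (((max y 1 : ℝ) : ℂ) * Complex.I)‖) atTop (𝓝 0) := by
      simpa using h0.norm
    exact not_tendsto_nhds_of_tendsto_atTop hinf 0 hn0
  · -- constant polynomial
    have hdeg' : p.degree ≤ 0 := not_lt.mp hdeg
    rw [Polynomial.eq_C_of_degree_le_zero hdeg'] at h0 hp
    simp only [Polynomial.eval_C] at h0
    have : p.coeff 0 = 0 := tendsto_nhds_unique tendsto_const_nhds h0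
    exact hp (by rw [this, map_zero])

theorem eq_of_iterate_D_eq {F G : ℍ → ℂ} (hF : MDiff F) (hG : MDiff G)
    (hF0 : IsZeroAtImInfty F) (hG0 : IsZeroAtImInfty G) (m : ℕ)
    (h : D^[m] F = D^[m] G) : F = G := by
  have hsub : D^[m] (F - G) = 0 := by
    rw [iterate_D_sub hF hG, h, sub_self]
  obtain ⟨p, -, hp⟩ := exists_poly_of_iterate_D_eq_zero (hF.sub hG) m hsub
  have hz : IsZeroAtImInfty (fun z : ℍ => p.eval (z : ℂ)) := by
    have h1 : Tendsto (fun z : ℍ => F z - G z) atImInfty (𝓝 0) := by
      have := Filter.Tendsto.sub hF0 hG0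
      simpa using this
    have h2 : (fun z : ℍ => p.eval (z : ℂ)) = fun z : ℍ => F z - G z := by
      funext z
      exact (hp z).symm
    change Tendsto (fun z : ℍ => p.eval (z : ℂ)) atImInfty (𝓝 0)
    rw [h2]
    exact h1
  have hp0 : p = 0 := poly_eq_zero_of_isZeroAtImInfty hz
  funext z
  have := hp z
  rw [hp0, Polynomial.eval_zero, Pi.sub_apply, sub_eq_zero] at this
  exact this

end Fermat.Agent.S22x
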