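import Fermat.Agent.S22x.Defs
import Fermat.Agent.S22x.NicePrimitive
import Fermat.Agent.S22x.PolyOfDeriv

/-!
# S22x / Eichler.lean : existence, uniqueness and linearity of Eichler integrals

Interface file of the S22 team (see table `s22_iface`).  `D = (2πi)⁻¹ d/dz`.
-/

set_option autoImplicit false

namespace Fermat.Agent.S22x

open UpperHalfPlane Derivative Filter
open scoped MatrixGroups ModularForm Manifold Real Topology

/-- Bridge: a cusp function (Defs) is nice (NicePrimitive) of its period. -/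
theorem IsCuspFn.exists_isNice {h : ℍ → ℂ} (hh : IsCuspFn h) : ∃ w : ℝ, 0 < w ∧ IsNice w h := by
  obtain ⟨w, hw, hper⟩ := hh.periodic
  exact ⟨w, hw, ⟨hh.mdiff, periodic_comp_ofComplex_of_vadd hper, hh.zero⟩⟩

/-- Bridge: a nice function is a cusp function. -/
theorem IsNice.isCuspFn {w : ℝ} (hw : 0 < w) {h : ℍ → ℂ} (hh : IsNice w h) : IsCuspFn h where
  mdiff := hh.mdiff
  periodic := by
    refine ⟨w, hw, fun z => ?_⟩
    have h1 := hh.periodic (z : ℂ)
    simp only [Function.comp_apply, ofComplex_apply] at h1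
    rw [← h1]
    congr 1
    have hpos : 0 < ((z : ℂ) + (w : ℂ)).im := by simpa using z.im_pos
    rw [ofComplex_apply_of_im_pos hpos]
    ext
    simp [add_comm]
  zero := hh.zero

/-- `D` of a primitive. -/
theorem D_eq_of_isPrimitiveOf {G F : ℍ → ℂ} (h : IsPrimitiveOf G F) :
    D G = (2 * π * Complex.I)⁻¹ • F := by
  funext z
  simp only [normalizedDerivOfComplex, Pi.smul_apply, smul_eq_mul]
  rw [(h z).deriv]

theorem isPrimitiveOf_of_D_eq {G F : ℍ → ℂ} (hG : MDiff G) (h : D G = F) :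
    IsPrimitiveOf G ((2 * π * Complex.I) • F) := by
  intro z
  have hd : DifferentiableAt ℂ (G ∘ ofComplex) (z : ℂ) :=
    (UpperHalfPlane.mdifferentiable_iff.mp hG (z : ℂ) z.im_pos).differentiableAt
      (isOpen_upperHalfPlaneSet.mem_nhds z.im_pos)
  have h1 := hd.hasDerivAt
  have h2 : deriv (G ∘ ofComplex) (z : ℂ) = ((2 * π * Complex.I) • F) z := by
    have h3 := congrFun h z
    simp only [normalizedDerivOfComplex] at h3
    simp only [Pi.smul_apply, smul_eq_mul, ← h3]
    have hpi : (2 * π * Complex.I : ℂ) ≠ 0 := Complex.two_pi_I_ne_zero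
    field_simp
  rwa [h2] at h1

/-! ## Existence -/

theorem exists_primitive {h : ℍ → ℂ} (hh : IsCuspFn h) :
    ∃ E : ℍ → ℂ, IsCuspFn E ∧ D E = h := by
  obtain ⟨w, hw, hnice⟩ := hh.exists_isNice
  have hnice' : IsNice w ((2 * π * Complex.I) • h) := by
    refine ⟨?_, ?_, ?_⟩
    · exact hnice.mdiff.const_smul _
    · intro z
      have := hnice.periodic z
      simp only [Function.comp_apply, Pi.smul_apply] at this ⊢
      rw [this]
    · have h1 : Tendsto ((2 * π * Complex.I : ℂ) • h) atImInfty (𝓝 ((2 * π * Complex.I : ℂ) • 0)) :=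
        Filter.Tendsto.const_smul hnice.zero _
      rwa [smul_zero] at h1
  obtain ⟨G, hGnice, hGprim⟩ := hnice'.exists_primitive hw
  refine ⟨G, hGnice.isCuspFn hw, ?_⟩
  rw [D_eq_of_isPrimitiveOf hGprim, smul_smul, inv_mul_cancel₀ Complex.two_pi_I_ne_zero, one_smul]

theorem exists_iterated_primitive {h : ℍ → ℂ} (hh : IsCuspFn h) (m : ℕ) :
    ∃ E : ℍ → ℂ, IsCuspFn E ∧ D^[m] E = h := by
  induction m generalizing h with
  | zero => exact ⟨h, hh, rfl⟩
  | succ m ih =>
    obtain ⟨E₁, hE₁, hD₁⟩ := exists_primitive hh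
    obtain ⟨E, hE, hD⟩ := ih hE₁
    refine ⟨E, hE, ?_⟩
    rw [Function.iterate_succ_apply', hD, hD₁]

/-! ## Uniqueness -/

theorem mdiff_iterate_D_h76 {F : ℍ → ℂ} (hF : MDiff F) (m : ℕ) : MDiff (D^[m] F) := by
  induction m with
  | zero => simpa using hF
  | succ m ih =>
    rw [Function.iterate_succ_apply']
    exact normalizedDerivOfComplex_mdifferentiable ih

theorem iterate_D_sub_h76 {F G : ℍ → ℂ} (hF : MDiff F) (hG : MDiff G) (m : ℕ) :
    D^[m] (F - G) = D^[m] F - D^[m] G := by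
  induction m with
  | zero => rfl
  | succ m ih =>
    rw [Function.iterate_succ_apply', Function.iterate_succ_apply', Function.iterate_succ_apply',
      ih, normalizedDerivOfComplex_sub _ _ (mdiff_iterate_D_h76 hF m) (mdiff_iterate_D_h76 hG m)]

/-- A polynomial function tending to zero at `i∞` is the zero polynomial. -/
theorem poly_eq_zero_of_isZeroAtImInfty_h76 {p : Polynomial ℂ}
    (h : IsZeroAtImInfty (fun z : ℍ => p.eval (z : ℂ))) : p = 0 := by
  have him : Tendsto (fun z : ℍ => z.im) atImInfty atTop := tendsto_comap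
  have hnorm : Tendsto (fun z : ℍ => ‖(z : ℂ)‖) atImInfty atTop := by
    refine tendsto_atTop_mono (fun z => ?_) him
    calc z.im = (z : ℂ).im := rfl
      _ ≤ |(z : ℂ).im| := le_abs_self _
      _ ≤ ‖(z : ℂ)‖ := Complex.abs_im_le_norm _
  by_cases hdeg : 0 < p.degree
  · exfalso
    have h1 := p.tendsto_norm_atTop hdeg hnorm
    have h2 : Tendsto (fun z : ℍ => ‖p.eval (z : ℂ)‖) atImInfty (𝓝 0) := by
      have := h.norm
      simpa using this
    exact not_tendsto_nhds_of_tendsto_atTop h1 _ h2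
  · have hC := Polynomial.eq_C_of_degree_le_zero (not_lt.mp hdeg)
    rw [hC] at h ⊢
    have h2 : Tendsto (fun _ : ℍ => p.coeff 0) atImInfty (𝓝 0) := by
      simpa [IsZeroAtImInfty, ZeroAtFilter] using h
    have h3 : p.coeff 0 = 0 := tendsto_nhds_unique tendsto_const_nhds h2
    rw [h3, Polynomial.C_0]

/-- uniqueness of iterated primitives vanishing at `i∞` -/
theorem eq_of_iterate_D_eq_h76 {F G : ℍ → ℂ} (hF : MDiff F) (hG : MDiff G)
    (hF0 : IsZeroAtImInfty F) (hG0 : IsZeroAtImInfty G) (m : ℕ)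
    (h : D^[m] F = D^[m] G) : F = G := by
  have h1 : D^[m] (F - G) = 0 := by
    rw [iterate_D_sub_h76 hF hG, h, sub_self]
  obtain ⟨p, -, hp⟩ := exists_polynomial_of_iterate_D_eq_zero m (F - G) (hF.sub hG) h1
  have hz : IsZeroAtImInfty (fun z : ℍ => p.eval (z : ℂ)) := by
    have h2 : IsZeroAtImInfty (F - G) := by
      have h3 : Tendsto (F - G) atImInfty (𝓝 (0 - 0)) := Filter.Tendsto.sub hF0 hG0
      rwa [sub_zero] at h3
    have h4 : (fun z : ℍ => p.eval (z : ℂ)) = F - G := funext fun z => (hp z).symm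
    rw [h4]
    exact h2
  have hp0 := poly_eq_zero_of_isZeroAtImInfty_h76 hz
  funext z
  have := hp z
  rw [hp0, Polynomial.eval_zero, Pi.sub_apply, sub_eq_zero] at this
  exact this

theorem iterate_D_add_h76 {F G : ℍ → ℂ} (hF : MDiff F) (hG : MDiff G) (m : ℕ) :
    D^[m] (F + G) = D^[m] F + D^[m] G := by
  induction m with
  | zero => rfl
  | succ m ih =>
    rw [Function.iterate_succ_apply', Function.iterate_succ_apply', Function.iterate_succ_apply',
      ih, normalizedDerivOfComplex_add _ _ (mdiff_iterate_D_h76 hF m) (mdiff_iterate_D_h76 hG m)]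

theorem iterate_D_smul_h76 {F : ℍ → ℂ} (hF : MDiff F) (c : ℂ) (m : ℕ) :
    D^[m] (c • F) = c • D^[m] F := by
  induction m with
  | zero => rfl
  | succ m ih =>
    rw [Function.iterate_succ_apply', Function.iterate_succ_apply', ih,
      normalizedDerivOfComplex_smul _ _ (mdiff_iterate_D_h76 hF m)]

/-! ## The `eichler` operator of `Defs.lean` -/

/-- characterisation of `eichler` -/
theorem eichler_spec {h : ℍ → ℂ} (hh : IsCuspFn h) (m : ℕ) :
    MDiff (eichler m h) ∧ IsZeroAtImInfty (eichler m h) ∧ D^[m] (eichler m h) = h := by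
  obtain ⟨E, hE, hD⟩ := exists_iterated_primitive hh m
  have H : ∃ E : ℍ → ℂ, MDiff E ∧ IsZeroAtImInfty E ∧ D^[m] E = h := ⟨E, hE.mdiff, hE.zero, hD⟩
  unfold eichler
  rw [dif_pos H]
  exact H.choose_spec

theorem eichler_unique {h E : ℍ → ℂ} (m : ℕ) (hE : MDiff E) (hE0 : IsZeroAtImInfty E)
    (hD : D^[m] E = h) : eichler m h = E := by
  have H : ∃ E : ℍ → ℂ, MDiff E ∧ IsZeroAtImInfty E ∧ D^[m] E = h := ⟨E, hE, hE0, hD⟩
  unfold eichler
  rw [dif_pos H]
  obtain ⟨h1, h2, h3⟩ := H.choose_spec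
  exact eq_of_iterate_D_eq_h76 h1 hE h2 hE0 m (h3.trans hD.symm)

/-- the Eichler integral of a cusp function is again a cusp function (same period). -/
theorem isCuspFn_eichler {h : ℍ → ℂ} (hh : IsCuspFn h) (m : ℕ) : IsCuspFn (eichler m h) := by
  obtain ⟨E, hE, hD⟩ := exists_iterated_primitive hh m
  rw [eichler_unique m hE.mdiff hE.zero hD]
  exact hE

theorem eichler_add {h h' : ℍ → ℂ} (hh : IsCuspFn h) (hh' : IsCuspFn h') (m : ℕ) :
    eichler m (h + h') = eichler m h + eichler m h' := by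
  obtain ⟨h1, h2, h3⟩ := eichler_spec hh m
  obtain ⟨h1', h2', h3'⟩ := eichler_spec hh' m
  refine eichler_unique m (h1.add h1') ?_ ?_
  · have h4 : Tendsto (eichler m h + eichler m h') atImInfty (𝓝 (0 + 0)) :=
      Filter.Tendsto.add h2 h2'
    rwa [add_zero] at h4
  · rw [iterate_D_add_h76 h1 h1', h3, h3']

theorem eichler_smul {h : ℍ → ℂ} (hh : IsCuspFn h) (c : ℂ) (m : ℕ) :
    eichler m (c • h) = c • eichler m h := by
  obtain ⟨h1, h2, h3⟩ := eichler_spec hh m
  refine eichler_unique m (h1.const_smul c) ?_ ?_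
  · have h4 : Tendsto (c • eichler m h) atImInfty (𝓝 (c • 0)) := Filter.Tendsto.const_smul h2 c
    rwa [smul_zero] at h4
  · rw [iterate_D_smul_h76 h1, h3]

theorem eichler_zero (m : ℕ) : eichler m (0 : ℍ → ℂ) = 0 := by
  refine eichler_unique m ?_ ?_ ?_
  · exact mdifferentiable_const
  · exact tendsto_const_nhds
  · induction m with
    | zero => rfl
    | succ m ih =>
      rw [Function.iterate_succ_apply', ih]
      exact normalizedDerivOfComplex_const 0

theorem eichler_sub {h h' : ℍ → ℂ} (hh : IsCuspFn h) (hh' : IsCuspFn h') (m : ℕ) :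
    eichler m (h - h') = eichler m h - eichler m h' := by
  obtain ⟨h1, h2, h3⟩ := eichler_spec hh m
  obtain ⟨h1', h2', h3'⟩ := eichler_spec hh' m
  refine eichler_unique m (h1.sub h1') ?_ ?_
  · have h4 : Tendsto (eichler m h - eichler m h') atImInfty (𝓝 (0 - 0)) :=
      Filter.Tendsto.sub h2 h2'
    rwa [sub_zero] at h4
  · rw [iterate_D_sub_h76 h1 h1', h3, h3']

end Fermat.Agent.S22x
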