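/-
S22 helper library: the action `polyAct` of integral matrices on polynomials of degree `≤ n`
(period polynomials). Pure algebra. Owner: helper83.
-/
import Mathlib
import Fermat.Agent.S22x.Defs

set_option autoImplicit false

namespace Fermat.Agent.S22x

open UpperHalfPlane Polynomial
open scoped MatrixGroups

/-- the `i`-th basic building block of `polyAct`. -/
noncomputable def polyActTerm (n : ℕ) (g : GL (Fin 2) ℝ) (i : ℕ) : Polynomial ℂ :=
  (C ((g 0 0 : ℝ) : ℂ) * X + C ((g 0 1 : ℝ) : ℂ)) ^ i *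
    (C ((g 1 0 : ℝ) : ℂ) * X + C ((g 1 1 : ℝ) : ℂ)) ^ (n - i)

theorem polyAct_eq_sum (n : ℕ) (g : GL (Fin 2) ℝ) (p : Polynomial ℂ) :
    polyAct n g p = ∑ i ∈ Finset.range (n + 1), C (p.coeff i) * polyActTerm n g i := by
  unfold polyAct polyActTerm
  exact Finset.sum_congr rfl fun i _ => by rw [mul_assoc]

theorem natDegree_polyActTerm_le (n : ℕ) (g : GL (Fin 2) ℝ) {i : ℕ} (hi : i ≤ n) :
    (polyActTerm n g i).natDegree ≤ n := by
  unfold polyActTerm
  calc _ ≤ ((C ((g 0 0 : ℝ) : ℂ) * X + C ((g 0 1 : ℝ) : ℂ)) ^ i).natDegree +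
        ((C ((g 1 0 : ℝ) : ℂ) * X + C ((g 1 1 : ℝ) : ℂ)) ^ (n - i)).natDegree :=
        natDegree_mul_le
    _ ≤ i * 1 + (n - i) * 1 := by
        gcongr
        · exact natDegree_pow_le_of_le i (natDegree_linear_le)
        · exact natDegree_pow_le_of_le (n - i) (natDegree_linear_le)
    _ = n := by omega

theorem polyAct_natDegree_le (n : ℕ) (g : GL (Fin 2) ℝ) (p : Polynomial ℂ) :
    (polyAct n g p).natDegree ≤ n := by
  rw [polyAct_eq_sum]
  refine natDegree_sum_le_of_forall_le _ _ fun i hi => ?_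
  have hi' : i ≤ n := Nat.lt_succ_iff.mp (Finset.mem_range.mp hi)
  calc _ ≤ (C (p.coeff i)).natDegree + (polyActTerm n g i).natDegree := natDegree_mul_le
    _ ≤ 0 + n := by
        gcongr
        · exact (natDegree_C _).le
        · exact natDegree_polyActTerm_le n g hi'
    _ = n := zero_add n

theorem polyAct_add (n : ℕ) (g : GL (Fin 2) ℝ) (p q : Polynomial ℂ) :
    polyAct n g (p + q) = polyAct n g p + polyAct n g q := by
  simp only [polyAct_eq_sum, coeff_add, C_add, add_mul, Finset.sum_add_distrib]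

theorem polyAct_zero (n : ℕ) (g : GL (Fin 2) ℝ) : polyAct n g 0 = 0 := by
  simp [polyAct_eq_sum]

theorem polyAct_smul (n : ℕ) (g : GL (Fin 2) ℝ) (c : ℂ) (p : Polynomial ℂ) :
    polyAct n g (c • p) = c • polyAct n g p := by
  rw [polyAct_eq_sum, polyAct_eq_sum, Finset.smul_sum]
  refine Finset.sum_congr rfl fun i _ => ?_
  rw [coeff_smul, smul_eq_mul, C_mul, mul_assoc, smul_eq_C_mul]

theorem polyAct_neg (n : ℕ) (g : GL (Fin 2) ℝ) (p : Polynomial ℂ) :
    polyAct n g (-p) = -polyAct n g p := by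
  simp only [polyAct_eq_sum, coeff_neg, C_neg, neg_mul, Finset.sum_neg_distrib]

theorem polyAct_sub (n : ℕ) (g : GL (Fin 2) ℝ) (p q : Polynomial ℂ) :
    polyAct n g (p - q) = polyAct n g p - polyAct n g q := by
  rw [sub_eq_add_neg, polyAct_add, polyAct_neg, sub_eq_add_neg]

theorem polyAct_sum {ι : Type*} (n : ℕ) (g : GL (Fin 2) ℝ) (s : Finset ι)
    (p : ι → Polynomial ℂ) :
    polyAct n g (∑ i ∈ s, p i) = ∑ i ∈ s, polyAct n g (p i) := by
  classical
  induction s using Finset.induction_on with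
  | empty => simp [polyAct_zero]
  | insert a s ha ih => rw [Finset.sum_insert ha, Finset.sum_insert ha, polyAct_add, ih]

/-- evaluation of `polyAct`, in terms of `num` and `denom` (valid for every `g`). -/
theorem polyAct_eval_num_denom (n : ℕ) (g : GL (Fin 2) ℝ) {p : Polynomial ℂ}
    (hp : p.natDegree ≤ n) (z : ℂ) (hz : denom g z ≠ 0) :
    (polyAct n g p).eval z = denom g z ^ n * p.eval (num g z / denom g z) := by
  rw [polyAct_eq_sum, eval_finsetSum,
    eval_eq_sum_range' (Nat.lt_succ_of_le hp), Finset.mul_sum]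
  refine Finset.sum_congr rfl fun i hi => ?_
  have hi' : i ≤ n := Nat.lt_succ_iff.mp (Finset.mem_range.mp hi)
  unfold polyActTerm
  simp only [eval_mul, eval_C, eval_pow, eval_add, eval_X]
  have hnum : ((g 0 0 : ℝ) : ℂ) * z + ((g 0 1 : ℝ) : ℂ) = num g z := rfl
  have hden : ((g 1 0 : ℝ) : ℂ) * z + ((g 1 1 : ℝ) : ℂ) = denom g z := rfl
  rw [hnum, hden, div_pow]
  have : denom g z ^ n = denom g z ^ i * denom g z ^ (n - i) := by
    rw [← pow_add, Nat.add_sub_cancel' hi']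
  rw [this]
  field_simp

/-- evaluation of `polyAct` on the upper half plane, for `g` of positive determinant:
`(polyAct n g p)(z) = (c z + d) ^ n * p (g z)`. -/
theorem polyAct_eval (n : ℕ) {g : GL (Fin 2) ℝ} (hg : 0 < g.val.det) {p : Polynomial ℂ}
    (hp : p.natDegree ≤ n) (z : ℍ) :
    (polyAct n g p).eval (z : ℂ) = denom g z ^ n * p.eval ((g • z : ℍ) : ℂ) := by
  have hg' : 0 < g.det.val := by
    rwa [Matrix.GeneralLinearGroup.val_det_apply]
  rw [coe_smul_of_det_pos hg', polyAct_eval_num_denom n g hp z (denom_ne_zero g z)]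

/-- `polyAct_eval` for integral matrices of positive determinant. -/
theorem polyAct_eval_of_mem (n : ℕ) {g : GL (Fin 2) ℝ} (hg : g ∈ M2pos) {p : Polynomial ℂ}
    (hp : p.natDegree ≤ n) (z : ℍ) :
    (polyAct n g p).eval (z : ℂ) = denom g z ^ n * p.eval ((g • z : ℍ) : ℂ) :=
  polyAct_eval n hg.1 hp z

theorem polyAct_one (n : ℕ) {p : Polynomial ℂ} (hp : p.natDegree ≤ n) :
    polyAct n (1 : GL (Fin 2) ℝ) p = p := by
  rw [polyAct_eq_sum]
  conv_rhs => rw [p.as_sum_range' (n + 1) (Nat.lt_succ_of_le hp)]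
  refine Finset.sum_congr rfl fun i _ => ?_
  unfold polyActTerm
  simp [C_mul_X_pow_eq_monomial]

/-- the integer polynomial underlying `polyActTerm` for an integral matrix. -/
noncomputable def polyActTermInt (n : ℕ) (a b c d : ℤ) (i : ℕ) : Polynomial ℤ :=
  (C a * X + C b) ^ i * (C c * X + C d) ^ (n - i)

theorem map_polyActTermInt (n : ℕ) {g : GL (Fin 2) ℝ} {a b c d : ℤ}
    (ha : g.val 0 0 = (a : ℝ)) (hb : g.val 0 1 = (b : ℝ)) (hc : g.val 1 0 = (c : ℝ))
    (hd : g.val 1 1 = (d : ℝ)) (i : ℕ) :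
    (polyActTermInt n a b c d i).map (Int.castRingHom ℂ) = polyActTerm n g i := by
  unfold polyActTermInt polyActTerm
  have ha' : ((g 0 0 : ℝ) : ℂ) = (a : ℂ) := by
    show ((g.val 0 0 : ℝ) : ℂ) = _
    rw [ha]; simp
  have hb' : ((g 0 1 : ℝ) : ℂ) = (b : ℂ) := by
    show ((g.val 0 1 : ℝ) : ℂ) = _
    rw [hb]; simp
  have hc' : ((g 1 0 : ℝ) : ℂ) = (c : ℂ) := by
    show ((g.val 1 0 : ℝ) : ℂ) = _
    rw [hc]; simp
  have hd' : ((g 1 1 : ℝ) : ℂ) = (d : ℂ) := by
    show ((g.val 1 1 : ℝ) : ℂ) = _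
    rw [hd]; simp
  rw [ha', hb', hc', hd']
  simp only [Polynomial.map_mul, Polynomial.map_pow, Polynomial.map_add, Polynomial.map_C,
    Polynomial.map_X]
  simp only [eq_intCast]

/-- integrality: coefficients of `polyAct n g p` are integer combinations of those of `p`. -/
theorem polyAct_coeff_int (n : ℕ) {g : GL (Fin 2) ℝ} (hg : g ∈ M2pos) :
    ∃ m : ℕ → ℕ → ℤ, ∀ (p : Polynomial ℂ) (j : ℕ),
      (polyAct n g p).coeff j = ∑ i ∈ Finset.range (n + 1), (m j i : ℂ) * p.coeff i := by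
  obtain ⟨-, hint⟩ := hg
  obtain ⟨a, ha⟩ := hint 0 0
  obtain ⟨b, hb⟩ := hint 0 1
  obtain ⟨c, hc⟩ := hint 1 0
  obtain ⟨d, hd⟩ := hint 1 1
  refine ⟨fun j i => (polyActTermInt n a b c d i).coeff j, fun p j => ?_⟩
  rw [polyAct_eq_sum, finsetSum_coeff]
  refine Finset.sum_congr rfl fun i _ => ?_
  rw [coeff_C_mul, ← map_polyActTermInt n ha hb hc hd i, coeff_map, eq_intCast, mul_comm]

/-- a version of integrality for vanishing: if all coefficients of `p` lie in an additive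
subgroup `Λ` of `ℂ`, so do all coefficients of `polyAct n g p`, for integral `g`. -/
theorem polyAct_coeff_mem (n : ℕ) {g : GL (Fin 2) ℝ} (hg : g ∈ M2pos) (Λ : AddSubgroup ℂ)
    {p : Polynomial ℂ} (hp : ∀ i, p.coeff i ∈ Λ) (j : ℕ) : (polyAct n g p).coeff j ∈ Λ := by
  obtain ⟨m, hm⟩ := polyAct_coeff_int n hg
  rw [hm]
  refine Λ.sum_mem fun i _ => ?_
  rw [← zsmul_eq_mul]
  exact Λ.zsmul_mem (hp i) _

end Fermat.Agent.S22x
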