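/-
S22 helper library: the period polynomials `rhoPoly n g h` and their cocycle relation.

Everything is proved for "good" functions `h` (`IsGood n h`: every `h ∣[n+2] g`, `g ∈ M2pos`, has an
`(n+1)`-fold Eichler integral); cusp functions (`IsCuspFnAll`) are good, and goodness is closed under
sums, scalar multiples and slashing by `M2pos`.
-/
import Fermat.Agent.S22x.DCalc
import Fermat.Agent.S22x.Bol
import Fermat.Agent.S22x.Eichler
import Fermat.Agent.S22x.CuspFn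
import Fermat.Agent.S22x.PolyAct
import Fermat.Agent.S22x.Hermite

set_option autoImplicit false

namespace Fermat.Agent.S22x

open UpperHalfPlane Derivative Polynomial
open scoped MatrixGroups ModularForm Manifold

theorem M2pos_det_pos {g : GL (Fin 2) ℝ} (hg : g ∈ M2pos) : 0 < g.val.det := hg.1

theorem smul_slash_of_det_pos (k : ℤ) {g : GL (Fin 2) ℝ} (hg : 0 < g.val.det) (c : ℂ)
    (h : ℍ → ℂ) : (c • h) ∣[k] g = c • (h ∣[k] g) := by
  rw [ModularForm.smul_slash]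
  congr 1
  simp [UpperHalfPlane.σ, hg]

/-! ### Functions having an Eichler integral -/

/-- `h` has an `m`-fold Eichler integral. -/
def HasEichler (m : ℕ) (h : ℍ → ℂ) : Prop :=
  ∃ E : ℍ → ℂ, MDiff E ∧ IsZeroAtImInfty E ∧ D^[m] E = h

theorem HasEichler.spec {m : ℕ} {h : ℍ → ℂ} (hh : HasEichler m h) :
    MDiff (eichler m h) ∧ IsZeroAtImInfty (eichler m h) ∧ D^[m] (eichler m h) = h := by
  classical
  have H : ∃ E : ℍ → ℂ, MDiff E ∧ IsZeroAtImInfty E ∧ D^[m] E = h := hh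
  unfold eichler
  rw [dif_pos H]
  exact H.choose_spec

theorem IsCuspFn.hasEichler {h : ℍ → ℂ} (hh : IsCuspFn h) (m : ℕ) : HasEichler m h :=
  ⟨eichler m h, eichler_spec hh m⟩

theorem HasEichler.add {m : ℕ} {h h' : ℍ → ℂ} (hh : HasEichler m h) (hh' : HasEichler m h') :
    HasEichler m (h + h') := by
  obtain ⟨E, hE, hE0, hDE⟩ := hh
  obtain ⟨E', hE', hE0', hDE'⟩ := hh'
  refine ⟨E + E', hE.add hE', ?_, ?_⟩
  · exact hE0.add hE0'
  · rw [iterate_D_add hE hE', hDE, hDE']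

theorem HasEichler.smul {m : ℕ} {h : ℍ → ℂ} (hh : HasEichler m h) (c : ℂ) :
    HasEichler m (c • h) := by
  obtain ⟨E, hE, hE0, hDE⟩ := hh
  refine ⟨c • E, hE.const_smul c, ?_, ?_⟩
  · exact hE0.smul c
  · rw [iterate_D_smul hE, hDE]

theorem eichler_add_of_hasEichler {m : ℕ} {h h' : ℍ → ℂ} (hh : HasEichler m h)
    (hh' : HasEichler m h') : eichler m (h + h') = eichler m h + eichler m h' := by
  obtain ⟨hE, hE0, hDE⟩ := hh.spec
  obtain ⟨hE', hE0', hDE'⟩ := hh'.spec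
  apply eichler_unique m (hE.add hE') (hE0.add hE0')
  rw [iterate_D_add hE hE', hDE, hDE']

theorem eichler_smul_of_hasEichler {m : ℕ} {h : ℍ → ℂ} (hh : HasEichler m h) (c : ℂ) :
    eichler m (c • h) = c • eichler m h := by
  obtain ⟨hE, hE0, hDE⟩ := hh.spec
  apply eichler_unique m (hE.const_smul c) (hE0.smul c)
  rw [iterate_D_smul hE, hDE]

/-- `h` is good (for weight `n + 2`): all its slashes by `M2pos` have Eichler integrals. -/
def IsGood (n : ℕ) (h : ℍ → ℂ) : Prop :=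
  ∀ g ∈ M2pos, HasEichler (n + 1) (h ∣[(n : ℤ) + 2] g)

theorem IsCuspFnAll.isGood {n : ℕ} {h : ℍ → ℂ} (hh : IsCuspFnAll ((n : ℤ) + 2) h) : IsGood n h :=
  fun g hg => (hh g hg).hasEichler (n + 1)

theorem IsGood.hasEichler {n : ℕ} {h : ℍ → ℂ} (hh : IsGood n h) : HasEichler (n + 1) h := by
  have := hh 1 (Submonoid.one_mem _)
  rwa [SlashAction.slash_one] at this

theorem IsGood.add {n : ℕ} {h h' : ℍ → ℂ} (hh : IsGood n h) (hh' : IsGood n h') :
    IsGood n (h + h') := fun g hg => by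
  rw [SlashAction.add_slash]
  exact (hh g hg).add (hh' g hg)

theorem IsGood.smul {n : ℕ} {h : ℍ → ℂ} (hh : IsGood n h) (c : ℂ) : IsGood n (c • h) :=
  fun g hg => by
    rw [smul_slash_of_det_pos _ hg.1]
    exact (hh g hg).smul c

theorem iterate_D_zero (m : ℕ) : D^[m] (0 : ℍ → ℂ) = 0 := by
  induction m with
  | zero => rfl
  | succ m ih =>
    rw [Function.iterate_succ_apply]
    have : D (0 : ℍ → ℂ) = 0 := normalizedDerivOfComplex_const 0
    rw [this, ih]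

theorem IsGood.zero (n : ℕ) : IsGood n 0 := fun g _ => by
  rw [SlashAction.zero_slash]
  exact ⟨0, mdifferentiable_const, Filter.zero_zeroAtFilter _, iterate_D_zero _⟩

theorem IsGood.slash {n : ℕ} {h : ℍ → ℂ} (hh : IsGood n h) {g : GL (Fin 2) ℝ} (hg : g ∈ M2pos) :
    IsGood n (h ∣[(n : ℤ) + 2] g) := fun g' hg' => by
  rw [← SlashAction.slash_mul]
  exact hh _ (Submonoid.mul_mem _ hg hg')

theorem IsGood.sum {n : ℕ} {ι : Type*} (s : Finset ι) {h : ι → ℍ → ℂ}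
    (hh : ∀ j ∈ s, IsGood n (h j)) : IsGood n (∑ j ∈ s, h j) := by
  classical
  induction s using Finset.induction_on with
  | empty => simpa using IsGood.zero n
  | insert a s ha ih =>
    rw [Finset.sum_insert ha]
    exact (hh a (Finset.mem_insert_self a s)).add
      (ih fun j hj => hh j (Finset.mem_insert_of_mem hj))

/-! ### Period polynomials -/

/-- `rhoFn` is a polynomial function of degree `≤ n`. -/
theorem rhoFn_eq_poly_of_isGood (n : ℕ) {h : ℍ → ℂ} (hh : IsGood n h) {g : GL (Fin 2) ℝ}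
    (hg : g ∈ M2pos) :
    ∃ p : Polynomial ℂ, p.natDegree ≤ n ∧ ∀ z : ℍ, rhoFn n g h z = p.eval (z : ℂ) := by
  obtain ⟨hE, -, hDE⟩ := hh.hasEichler.spec
  obtain ⟨hE', -, hDE'⟩ := (hh g hg).spec
  have hact : MDiff (act n g (eichler (n + 1) h)) := mdiff_act n hE hg.1
  have hmd : MDiff (rhoFn n g h) := by
    unfold rhoFn
    exact hact.sub hE'
  have hzero : D^[n + 1] (rhoFn n g h) = 0 := by
    unfold rhoFn
    rw [iterate_D_sub hact hE', iterate_D_act n hE hg.1, hDE, hDE', sub_self]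
  obtain ⟨p, hp, hev⟩ := exists_polynomial_of_iterate_D_eq_zero (n + 1) _ hmd hzero
  refine ⟨p, ?_, hev⟩
  by_cases hp0 : p = 0
  · simp [hp0]
  · have := (Polynomial.natDegree_lt_iff_degree_lt hp0).mpr hp
    omega

theorem rhoPoly_natDegree_le (n : ℕ) (g : GL (Fin 2) ℝ) (h : ℍ → ℂ) :
    (rhoPoly n g h).natDegree ≤ n := by
  classical
  unfold rhoPoly
  split_ifs with H
  · exact H.choose_spec.1
  · simp

/-- Uniqueness: any polynomial agreeing with `rhoFn` on `ℍ` is `rhoPoly`. -/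
theorem rhoPoly_eq_of_eval (n : ℕ) (g : GL (Fin 2) ℝ) (h : ℍ → ℂ) (p : Polynomial ℂ)
    (hp : p.natDegree ≤ n) (hev : ∀ z : ℍ, rhoFn n g h z = p.eval (z : ℂ)) :
    rhoPoly n g h = p := by
  classical
  have H : ∃ p : Polynomial ℂ, p.natDegree ≤ n ∧ ∀ z : ℍ, rhoFn n g h z = p.eval (z : ℂ) :=
    ⟨p, hp, hev⟩
  unfold rhoPoly
  rw [dif_pos H]
  apply poly_eq_of_eval_eq_on_upperHalfPlane
  intro z
  rw [← H.choose_spec.2 z, hev z]

theorem rhoPoly_eval_of_isGood (n : ℕ) {h : ℍ → ℂ} (hh : IsGood n h) {g : GL (Fin 2) ℝ}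
    (hg : g ∈ M2pos) (z : ℍ) : (rhoPoly n g h).eval (z : ℂ) = rhoFn n g h z := by
  classical
  have H := rhoFn_eq_poly_of_isGood n hh hg
  unfold rhoPoly
  rw [dif_pos H]
  exact (H.choose_spec.2 z).symm

theorem rhoFn_add_of_isGood (n : ℕ) {h h' : ℍ → ℂ} (hh : IsGood n h) (hh' : IsGood n h')
    {g : GL (Fin 2) ℝ} (hg : g ∈ M2pos) :
    rhoFn n g (h + h') = rhoFn n g h + rhoFn n g h' := by
  unfold rhoFn
  rw [eichler_add_of_hasEichler hh.hasEichler hh'.hasEichler, SlashAction.add_slash,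
    eichler_add_of_hasEichler (hh g hg) (hh' g hg), act_add]
  abel

theorem rhoFn_smul_of_isGood (n : ℕ) {h : ℍ → ℂ} (hh : IsGood n h) (c : ℂ)
    {g : GL (Fin 2) ℝ} (hg : g ∈ M2pos) :
    rhoFn n g (c • h) = c • rhoFn n g h := by
  unfold rhoFn
  rw [eichler_smul_of_hasEichler hh.hasEichler, smul_slash_of_det_pos _ hg.1,
    eichler_smul_of_hasEichler (hh g hg), act_smul, smul_sub]

theorem rhoPoly_add_of_isGood (n : ℕ) {h h' : ℍ → ℂ} (hh : IsGood n h) (hh' : IsGood n h')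
    {g : GL (Fin 2) ℝ} (hg : g ∈ M2pos) :
    rhoPoly n g (h + h') = rhoPoly n g h + rhoPoly n g h' := by
  apply rhoPoly_eq_of_eval
  · exact (Polynomial.natDegree_add_le _ _).trans
      (max_le (rhoPoly_natDegree_le n g h) (rhoPoly_natDegree_le n g h'))
  · intro z
    rw [rhoFn_add_of_isGood n hh hh' hg, Polynomial.eval_add, rhoPoly_eval_of_isGood n hh hg,
      rhoPoly_eval_of_isGood n hh' hg]
    rfl

theorem rhoPoly_smul_of_isGood (n : ℕ) {h : ℍ → ℂ} (hh : IsGood n h) (c : ℂ)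
    {g : GL (Fin 2) ℝ} (hg : g ∈ M2pos) :
    rhoPoly n g (c • h) = c • rhoPoly n g h := by
  apply rhoPoly_eq_of_eval
  · exact (Polynomial.natDegree_smul_le c _).trans (rhoPoly_natDegree_le n g h)
  · intro z
    rw [rhoFn_smul_of_isGood n hh c hg, Polynomial.eval_smul, rhoPoly_eval_of_isGood n hh hg]
    rfl

theorem rhoPoly_zero (n : ℕ) {g : GL (Fin 2) ℝ} (hg : g ∈ M2pos) : rhoPoly n g 0 = 0 := by
  have h := rhoPoly_smul_of_isGood n (IsGood.zero n) (0 : ℂ) hg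
  simpa using h

theorem rhoPoly_sum_of_isGood (n : ℕ) {ι : Type*} (s : Finset ι) {h : ι → ℍ → ℂ}
    (hh : ∀ j ∈ s, IsGood n (h j)) {g : GL (Fin 2) ℝ} (hg : g ∈ M2pos) :
    rhoPoly n g (∑ j ∈ s, h j) = ∑ j ∈ s, rhoPoly n g (h j) := by
  classical
  induction s using Finset.induction_on with
  | empty => simpa using rhoPoly_zero n hg
  | insert a s ha ih =>
    have hs : ∀ j ∈ s, IsGood n (h j) := fun j hj => hh j (Finset.mem_insert_of_mem hj)
    rw [Finset.sum_insert ha, Finset.sum_insert ha,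
      rhoPoly_add_of_isGood n (hh a (Finset.mem_insert_self a s)) (IsGood.sum s hs) hg, ih hs]

/-- The function-level cocycle relation. -/
theorem rhoFn_mul (n : ℕ) (h : ℍ → ℂ) (g : GL (Fin 2) ℝ) {g' : GL (Fin 2) ℝ}
    (hg' : 0 < g'.val.det) :
    rhoFn n (g * g') h = act n g' (rhoFn n g h) + rhoFn n g' (h ∣[(n : ℤ) + 2] g) := by
  unfold rhoFn
  rw [act_mul n g hg', SlashAction.slash_mul, act_sub]
  abel

/-- The cocycle relation for period polynomials. -/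
theorem rhoPoly_mul_of_isGood (n : ℕ) {h : ℍ → ℂ} (hh : IsGood n h)
    {g g' : GL (Fin 2) ℝ} (hg : g ∈ M2pos) (hg' : g' ∈ M2pos) :
    rhoPoly n (g * g') h =
      polyAct n g' (rhoPoly n g h) + rhoPoly n g' (h ∣[(n : ℤ) + 2] g) := by
  apply rhoPoly_eq_of_eval
  · exact (Polynomial.natDegree_add_le _ _).trans
      (max_le (polyAct_natDegree_le n g' _) (rhoPoly_natDegree_le n g' _))
  · intro z
    rw [rhoFn_mul n h g hg'.1, Polynomial.eval_add, rhoPoly_eval_of_isGood n (hh.slash hg) hg',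
      polyAct_eval n hg'.1 (rhoPoly_natDegree_le n g h), rhoPoly_eval_of_isGood n hh hg]
    rfl

/-- Upper triangular matrices have trivial period function. -/
theorem rhoFn_upper_of_isGood (n : ℕ) {h : ℍ → ℂ} (hh : IsGood n h)
    {g : GL (Fin 2) ℝ} (hg : g ∈ M2pos) (hg10 : g 1 0 = 0) : rhoFn n g h = 0 := by
  obtain ⟨hE, hE0, hDE⟩ := hh.hasEichler.spec
  have h1 : eichler (n + 1) (h ∣[(n : ℤ) + 2] g) = act n g (eichler (n + 1) h) := by
    apply eichler_unique (n + 1) (mdiff_act n hE hg.1) (isZeroAtImInfty_act n hE0 hg.1 hg10)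
    rw [iterate_D_act n hE hg.1, hDE]
  unfold rhoFn
  rw [h1, sub_self]

theorem rhoPoly_upper_of_isGood (n : ℕ) {h : ℍ → ℂ} (hh : IsGood n h)
    {g : GL (Fin 2) ℝ} (hg : g ∈ M2pos) (hg10 : g 1 0 = 0) : rhoPoly n g h = 0 := by
  apply rhoPoly_eq_of_eval
  · simp
  · intro z
    rw [rhoFn_upper_of_isGood n hh hg hg10]
    simp

/-! ### Interface versions (for cusp functions) -/

theorem rhoFn_eq_poly (n : ℕ) {h : ℍ → ℂ} (hh : IsCuspFnAll ((n : ℤ) + 2) h) {g : GL (Fin 2) ℝ}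
    (hg : g ∈ M2pos) :
    ∃ p : Polynomial ℂ, p.natDegree ≤ n ∧ ∀ z : ℍ, rhoFn n g h z = p.eval (z : ℂ) :=
  rhoFn_eq_poly_of_isGood n hh.isGood hg

theorem rhoPoly_eval (n : ℕ) {h : ℍ → ℂ} (hh : IsCuspFnAll ((n : ℤ) + 2) h) {g : GL (Fin 2) ℝ}
    (hg : g ∈ M2pos) (z : ℍ) : (rhoPoly n g h).eval (z : ℂ) = rhoFn n g h z :=
  rhoPoly_eval_of_isGood n hh.isGood hg z

theorem rhoPoly_add (n : ℕ) {h h' : ℍ → ℂ} (hh : IsCuspFnAll ((n : ℤ) + 2) h)
    (hh' : IsCuspFnAll ((n : ℤ) + 2) h') {g : GL (Fin 2) ℝ} (hg : g ∈ M2pos) :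
    rhoPoly n g (h + h') = rhoPoly n g h + rhoPoly n g h' :=
  rhoPoly_add_of_isGood n hh.isGood hh'.isGood hg

theorem rhoPoly_smul (n : ℕ) {h : ℍ → ℂ} (hh : IsCuspFnAll ((n : ℤ) + 2) h) (c : ℂ)
    {g : GL (Fin 2) ℝ} (hg : g ∈ M2pos) :
    rhoPoly n g (c • h) = c • rhoPoly n g h :=
  rhoPoly_smul_of_isGood n hh.isGood c hg

theorem rhoPoly_mul (n : ℕ) {h : ℍ → ℂ} (hh : IsCuspFnAll ((n : ℤ) + 2) h)
    {g g' : GL (Fin 2) ℝ} (hg : g ∈ M2pos) (hg' : g' ∈ M2pos) :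
    rhoPoly n (g * g') h =
      polyAct n g' (rhoPoly n g h) + rhoPoly n g' (h ∣[(n : ℤ) + 2] g) :=
  rhoPoly_mul_of_isGood n hh.isGood hg hg'

theorem rhoPoly_upper (n : ℕ) {h : ℍ → ℂ} (hh : IsCuspFnAll ((n : ℤ) + 2) h)
    {g : GL (Fin 2) ℝ} (hg : g ∈ M2pos) (hg10 : g 1 0 = 0) : rhoPoly n g h = 0 :=
  rhoPoly_upper_of_isGood n hh.isGood hg hg10

theorem rhoPoly_one (n : ℕ) {h : ℍ → ℂ} (hh : IsCuspFnAll ((n : ℤ) + 2) h) :
    rhoPoly n 1 h = 0 :=
  rhoPoly_upper n hh (Submonoid.one_mem _) (by simp)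

end Fermat.Agent.S22x
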