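/-
S22 helper library: the separation step (core, hypothesis-parametrised version).
If all period polynomials `rhoPoly n γ f` (`γ ∈ SL(2, ℤ)`) of a cusp form `f` of weight `n + 2`
on `Γ₀(N)` vanish, then `f = 0`.
Idea: the Eichler integral `E` of `f` is then a modular form of weight `-n ≤ 0` for `Γ₀(N)`
vanishing at `i∞`, hence zero, hence `f = D^[n+1] E = 0`.

This file only imports `Defs`; the facts about `eichler`, `rhoPoly` and cusp functions proved in
the sibling files (`Eichler`, `Cocycle`, `CuspFn`) enter as explicit hypotheses, so that the final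
statement `eq_zero_of_rhoPoly_eq_zero` is a three-line corollary (see `Separation.lean`).
-/
import Fermat.Agent.S22x.Defs

set_option autoImplicit false

namespace Fermat.Agent.S22x

open UpperHalfPlane Derivative Polynomial CongruenceSubgroup Matrix.SpecialLinearGroup OnePoint
open scoped MatrixGroups ModularForm Manifold

/-- A modular form of weight `k ≤ 0` for an arithmetic group which tends to zero at `i∞`
vanishes identically. -/
theorem sep_modularForm_eq_zero_of_nonpos {Γ : Subgroup (GL (Fin 2) ℝ)} [Γ.IsArithmetic]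
    {k : ℤ} (hk : k ≤ 0) (F : ModularForm Γ k) (h0 : IsZeroAtImInfty (F : ℍ → ℂ)) :
    (F : ℍ → ℂ) = 0 := by
  rcases hk.lt_or_eq with hk | rfl
  · rw [ModularForm.isZero_of_neg_weight hk F]
    rfl
  · obtain ⟨c, hc⟩ := ModularForm.eq_const_of_weight_zero F
    have hc0 : c = 0 := by
      rw [hc, IsZeroAtImInfty, Filter.ZeroAtFilter] at h0
      exact tendsto_nhds_unique tendsto_const_nhds h0
    rw [hc, hc0]
    rfl

/-- `D^[m] 0 = 0`. -/
theorem sep_iterate_D_zero (m : ℕ) : D^[m] (0 : ℍ → ℂ) = 0 := by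
  induction m with
  | zero => rfl
  | succ m ih =>
    rw [Function.iterate_succ_apply', ih]
    exact normalizedDerivOfComplex_const 0

/-- The determinant of the image of `γ ∈ SL(2, ℤ)` in `GL (Fin 2) ℝ` is `1`. -/
theorem sep_det_mapGL (γ : SL(2, ℤ)) : (mapGL ℝ γ : GL (Fin 2) ℝ).val.det = 1 := by
  have h := (Matrix.SpecialLinearGroup.map (Int.castRingHom ℝ) γ).det_coe
  simpa [Matrix.SpecialLinearGroup.mapGL] using h

/-- The image of `SL(2, ℤ)` lies in `M2pos`. -/
theorem sep_mapGL_mem_M2pos (γ : SL(2, ℤ)) : (mapGL ℝ γ : GL (Fin 2) ℝ) ∈ M2pos := by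
  refine ⟨by rw [sep_det_mapGL]; norm_num, fun i j => ⟨γ.val i j, ?_⟩⟩
  simp [Matrix.SpecialLinearGroup.mapGL]

/-- For `γ ∈ SL(2, ℤ)` the un-normalised action `act n γ` is the weight `-n` slash action. -/
theorem sep_act_mapGL (n : ℕ) (γ : SL(2, ℤ)) (F : ℍ → ℂ) :
    act n (mapGL ℝ γ) F = F ∣[(-(n : ℤ))] (mapGL ℝ γ) := by
  funext z
  have hdet : (mapGL ℝ γ : GL (Fin 2) ℝ).det.val = 1 := by
    simp
  have hσ : σ (mapGL ℝ γ : GL (Fin 2) ℝ) = .refl ℝ ℂ := by
    rw [σ, if_pos (by rw [hdet]; norm_num)]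
  rw [act, ModularForm.slash_apply, hσ, hdet]
  simp [mul_comm]

/-- Core of the separation step, with the properties of `eichler` and `rhoPoly` as hypotheses. -/
theorem sep_eq_zero_of_rhoPoly_eq_zero_of {N : ℕ} [NeZero N] (n : ℕ)
    (f : CuspForm (Gamma0 N) ((n : ℤ) + 2))
    (hf : ∀ g ∈ M2pos, IsCuspFn (⇑f ∣[(n : ℤ) + 2] g))
    (hspec : ∀ h : ℍ → ℂ, IsCuspFn h →
      MDiff (eichler (n + 1) h) ∧ IsZeroAtImInfty (eichler (n + 1) h) ∧
        D^[n + 1] (eichler (n + 1) h) = h)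
    (heval : ∀ g ∈ M2pos, ∀ z : ℍ, (rhoPoly n g ⇑f).eval (z : ℂ) = rhoFn n g ⇑f z)
    (h0 : ∀ γ : SL(2, ℤ), rhoPoly n (Matrix.SpecialLinearGroup.mapGL ℝ γ) ⇑f = 0) : f = 0 := by
  have hfc : IsCuspFn ⇑f := by
    have h := hf 1 (one_mem _)
    rwa [SlashAction.slash_one] at h
  obtain ⟨hEmd, hE0, hED⟩ := hspec _ hfc
  -- key identity: slashing the Eichler integral by `γ ∈ SL(2, ℤ)`
  have key : ∀ γ : SL(2, ℤ), (eichler (n + 1) ⇑f) ∣[(-(n : ℤ))] (mapGL ℝ γ) =
      eichler (n + 1) (⇑f ∣[(n : ℤ) + 2] (mapGL ℝ γ)) := by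
    intro γ
    have hg : (mapGL ℝ γ : GL (Fin 2) ℝ) ∈ M2pos := sep_mapGL_mem_M2pos γ
    funext z
    have h1 : rhoFn n (mapGL ℝ γ) ⇑f z = 0 := by
      rw [← heval _ hg z, h0 γ]
      simp
    rw [rhoFn, sep_act_mapGL] at h1
    simpa [sub_eq_zero] using h1
  -- package the Eichler integral as a modular form of weight `-n`
  let EM : ModularForm (Gamma0 N) (-(n : ℤ)) :=
    { toFun := eichler (n + 1) ⇑f
      slash_action_eq' := by
        intro γ hγ
        obtain ⟨γ', hγ', rfl⟩ := hγ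
        have hfγ : ⇑f ∣[(n : ℤ) + 2] (mapGL ℝ γ') = ⇑f :=
          SlashInvariantFormClass.slash_action_eq f _ ⟨γ', hγ', rfl⟩
        have := key γ'
        rw [hfγ] at this
        exact this
      holo' := hEmd
      bdd_at_cusps' := by
        intro c hc
        have hc' : IsCusp c 𝒮ℒ :=
          (Subgroup.IsArithmetic.isCusp_iff_isCusp_SL2Z _).mp hc
        rw [isBoundedAt_iff_forall_SL2Z hc']
        intro γ _
        have hcf : IsCuspFn (⇑f ∣[(n : ℤ) + 2] (mapGL ℝ γ)) := hf _ (sep_mapGL_mem_M2pos γ)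
        have h3 := (hspec _ hcf).2.1
        have h4 : (eichler (n + 1) ⇑f) ∣[(-(n : ℤ))] γ =
            eichler (n + 1) (⇑f ∣[(n : ℤ) + 2] (mapGL ℝ γ)) := key γ
        rw [h4]
        exact h3.isBoundedAtImInfty }
  have hEM : (EM : ℍ → ℂ) = 0 :=
    sep_modularForm_eq_zero_of_nonpos (by simp) EM hE0
  have hE : eichler (n + 1) ⇑f = 0 := hEM
  have hfz : (⇑f : ℍ → ℂ) = 0 := by
    rw [← hED, hE, sep_iterate_D_zero]
  ext z
  rw [hfz]
  rfl

end Fermat.Agent.S22x
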