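import Mathlib
import Fermat.Prelude.Def_CuspForm_HeckeAlgebra

/-!
# S22 helper: a stable separating finitely generated lattice in the dual forces finiteness

If `Λ ⊆ Module.Dual K V` is a finitely generated `ℤ`-submodule which separates the points of `V`
and is stable under the transposes of a set `G` of endomorphisms of `V`, then the `ℤ`-algebra
generated by `G` is a finitely generated `ℤ`-module.
-/

set_option autoImplicit false

namespace Fermat.Agent.S22x

open Module

section Abstract

variable {K V : Type*} [Field K] [CharZero K] [AddCommGroup V] [Module K V]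

/-- The `ℤ`-subalgebra of endomorphisms whose transposes preserve `Λ`. -/
def stabSubalgebra (Λ : Submodule ℤ (Module.Dual K V)) : Subalgebra ℤ (Module.End K V) where
  carrier := {T | ∀ l ∈ Λ, l.comp T ∈ Λ}
  mul_mem' := by
    intro T T' hT hT' l hl
    have : l.comp (T * T') = (l.comp T).comp T' := rfl
    rw [this]
    exact hT' _ (hT _ hl)
  add_mem' := by
    intro T T' hT hT' l hl
    rw [LinearMap.comp_add]
    exact Λ.add_mem (hT _ hl) (hT' _ hl)
  algebraMap_mem' := by
    intro n l hl
    have : l.comp (algebraMap ℤ (Module.End K V) n) = n • l := by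
      ext v
      simp [Algebra.algebraMap_eq_smul_one]
    rw [this]
    exact Λ.smul_mem n hl

theorem mem_stabSubalgebra {Λ : Submodule ℤ (Module.Dual K V)} {T : Module.End K V} :
    T ∈ stabSubalgebra Λ ↔ ∀ l ∈ Λ, l.comp T ∈ Λ := Iff.rfl

/-- The transpose action of the stabiliser subalgebra on `Λ`, as a `ℤ`-linear map. -/
def transposeOnLattice (Λ : Submodule ℤ (Module.Dual K V)) :
    stabSubalgebra Λ →ₗ[ℤ] (Λ →ₗ[ℤ] Λ) where
  toFun T :=
    { toFun := fun l => ⟨(l : Module.Dual K V).comp (T : Module.End K V), T.2 _ l.2⟩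
      map_add' := by
        intro l l'
        ext v
        simp
      map_smul' := by
        intro n l
        ext v
        simp }
  map_add' := by
    intro T T'
    ext l v
    simp
  map_smul' := by
    intro n T
    ext l v
    simp

theorem transposeOnLattice_injective (Λ : Submodule ℤ (Module.Dual K V))
    (hsep : ∀ v : V, (∀ l ∈ Λ, l v = 0) → v = 0) :
    Function.Injective (transposeOnLattice Λ) := by
  rw [injective_iff_map_eq_zero]
  intro T hT
  apply Subtype.ext
  apply LinearMap.ext
  intro v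
  apply hsep
  intro l hl
  have h1 := congrArg (fun F : (Λ →ₗ[ℤ] Λ) => ((F ⟨l, hl⟩ : Λ) : Module.Dual K V) v) hT
  simpa [transposeOnLattice] using h1

theorem finite_stabSubalgebra (Λ : Submodule ℤ (Module.Dual K V)) (hfg : Λ.FG)
    (hsep : ∀ v : V, (∀ l ∈ Λ, l v = 0) → v = 0) :
    Module.Finite ℤ (stabSubalgebra Λ) := by
  haveI : Module.Finite ℤ Λ := Module.Finite.iff_fg.mpr hfg
  haveI : Module.Free ℤ Λ := Module.free_of_finite_type_torsion_free'
  haveI : Module.Finite ℤ (Λ →ₗ[ℤ] Λ) := Module.Finite.linearMap ℤ ℤ Λ Λ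
  haveI : IsNoetherian ℤ (Λ →ₗ[ℤ] Λ) := isNoetherian_of_isNoetherianRing_of_finite ℤ _
  exact Module.Finite.of_injective (transposeOnLattice Λ) (transposeOnLattice_injective Λ hsep)

/-- Main abstract statement. -/
theorem finite_adjoin_of_stable_lattice (G : Set (Module.End K V))
    (Λ : Submodule ℤ (Module.Dual K V)) (hfg : Λ.FG)
    (hsep : ∀ v : V, (∀ l ∈ Λ, l v = 0) → v = 0)
    (hstab : ∀ T ∈ G, ∀ l ∈ Λ, l.comp T ∈ Λ) :
    Module.Finite ℤ (Algebra.adjoin ℤ G) := by
  have hle : Algebra.adjoin ℤ G ≤ stabSubalgebra Λ := Algebra.adjoin_le hstab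
  haveI := finite_stabSubalgebra Λ hfg hsep
  haveI : IsNoetherian ℤ (stabSubalgebra Λ) := isNoetherian_of_isNoetherianRing_of_finite ℤ _
  exact Module.Finite.of_injective (Subalgebra.inclusion hle).toLinearMap
    (Subalgebra.inclusion_injective hle)

end Abstract

/-- Reduction of S22 to the existence of a finitely generated, separating, Hecke-stable lattice
in the dual of the space of cusp forms. -/
theorem finite_heckeAlgebra_of_lattice (N : ℕ) [NeZero N] (k : ℤ) (S : Set ℕ)
    (Λ : Submodule ℤ (Module.Dual ℂ (CuspForm (CongruenceSubgroup.Gamma0 N) k)))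
    (hfg : Λ.FG)
    (hsep : ∀ f : CuspForm (CongruenceSubgroup.Gamma0 N) k, (∀ l ∈ Λ, l f = 0) → f = 0)
    (hstab : ∀ T ∈ CuspForm.heckeGenerators N k S, ∀ l ∈ Λ, l.comp T ∈ Λ) :
    Module.Finite ℤ (CuspForm.heckeAlgebra N k S) :=
  finite_adjoin_of_stable_lattice (CuspForm.heckeGenerators N k S) Λ hfg hsep hstab

/-- If the space of cusp forms is trivial, the Hecke algebra is trivially finite. -/
theorem finite_heckeAlgebra_of_subsingleton (N : ℕ) [NeZero N] (k : ℤ) (S : Set ℕ)
    [Subsingleton (CuspForm (CongruenceSubgroup.Gamma0 N) k)] :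
    Module.Finite ℤ (CuspForm.heckeAlgebra N k S) := by
  haveI : Subsingleton (Module.End ℂ (CuspForm (CongruenceSubgroup.Gamma0 N) k)) :=
    ⟨fun a b => LinearMap.ext fun v => Subsingleton.elim _ _⟩
  haveI : Subsingleton (CuspForm.heckeAlgebra N k S) :=
    ⟨fun a b => Subtype.ext (Subsingleton.elim _ _)⟩
  infer_instance

end Fermat.Agent.S22x
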