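/-
S22 helper library: the coefficient functionals `lamAt` and the period lattice `periodLattice`.
(Definitions only; their properties are proved in Lattice.lean / LatticeFG.lean.)
-/
import Fermat.Agent.S22x.Defs

set_option autoImplicit false

namespace Fermat.Agent.S22x

open UpperHalfPlane CongruenceSubgroup
open scoped MatrixGroups ModularForm Manifold

/-- The raw coefficient function `f ↦ coeff_i (rhoPoly n g (f ∣[n+2] g'))`. -/
noncomputable def lamFun {N : ℕ} (n : ℕ) (g' g : GL (Fin 2) ℝ) (i : ℕ)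
    (f : CuspForm (Gamma0 N) ((n : ℤ) + 2)) : ℂ :=
  (rhoPoly n g (⇑f ∣[(n : ℤ) + 2] g')).coeff i

/-- The coefficient functional `f ↦ coeff_i (rhoPoly n g (f ∣[n+2] g'))` as a `ℂ`-linear map
(it is linear for `g', g ∈ M2pos`, see `lamAt_apply`; junk value `0` otherwise). -/
noncomputable def lamAt {N : ℕ} (n : ℕ) (g' g : GL (Fin 2) ℝ) (i : ℕ) :
    CuspForm (Gamma0 N) ((n : ℤ) + 2) →ₗ[ℂ] ℂ :=
  open Classical in
  if h : IsLinearMap ℂ (lamFun (N := N) n g' g i) then h.mk' _ else 0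

theorem lamAt_apply_of_isLinearMap {N : ℕ} (n : ℕ) (g' g : GL (Fin 2) ℝ) (i : ℕ)
    (h : IsLinearMap ℂ (lamFun (N := N) n g' g i)) (f : CuspForm (Gamma0 N) ((n : ℤ) + 2)) :
    lamAt n g' g i f = (rhoPoly n g (⇑f ∣[(n : ℤ) + 2] g')).coeff i := by
  classical
  rw [lamAt, dif_pos h]
  rfl

/-- The period lattice: the `ℤ`-span of all coefficient functionals `f ↦ coeff_i (rhoPoly n g f)`,
`g` an integral matrix of positive determinant. -/
noncomputable def periodLattice (N : ℕ) (n : ℕ) :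
    Submodule ℤ (CuspForm (Gamma0 N) ((n : ℤ) + 2) →ₗ[ℂ] ℂ) :=
  Submodule.span ℤ {l | ∃ g ∈ M2pos, ∃ i : ℕ, l = lamAt n 1 g i}

/-- The (finite) generating family used for finite generation: coefficients of
`rhoPoly n S (f ∣ γ)`, `γ ∈ SL(2, ℤ)`, `i ≤ n`. -/
noncomputable def maninLattice (N : ℕ) (n : ℕ) :
    Submodule ℤ (CuspForm (Gamma0 N) ((n : ℤ) + 2) →ₗ[ℂ] ℂ) :=
  Submodule.span ℤ {l | ∃ γ : SL(2, ℤ), ∃ i ∈ Finset.range (n + 1),
    l = lamAt n (Matrix.SpecialLinearGroup.mapGL ℝ γ)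
      (Matrix.SpecialLinearGroup.mapGL ℝ ModularGroup.S) i}

end Fermat.Agent.S22x
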