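/-
S22 helper library: basic properties of the coefficient functionals `lamAt` and of the period
lattice: Hecke stability and separation.
-/
import Fermat.Agent.S22x.LatticeDefs
import Fermat.Agent.S22x.Cocycle
import Fermat.Agent.S22x.SeparationCore

set_option autoImplicit false

namespace Fermat.Agent.S22x

open UpperHalfPlane Derivative Polynomial CongruenceSubgroup
open scoped MatrixGroups ModularForm Manifold

variable {N : ℕ} [NeZero N]

theorem isGood_cuspForm_slash (n : ℕ) (f : CuspForm (Gamma0 N) ((n : ℤ) + 2))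
    {g' : GL (Fin 2) ℝ} (hg' : g' ∈ M2pos) : IsGood n (⇑f ∣[(n : ℤ) + 2] g') :=
  ((isCuspFnAll_cuspForm f).slash hg').isGood

theorem isGood_cuspForm (n : ℕ) (f : CuspForm (Gamma0 N) ((n : ℤ) + 2)) : IsGood n ⇑f :=
  (isCuspFnAll_cuspForm f).isGood

theorem isLinearMap_lamFun_lat (n : ℕ) {g' g : GL (Fin 2) ℝ} (hg' : g' ∈ M2pos) (hg : g ∈ M2pos)
    (i : ℕ) : IsLinearMap ℂ (lamFun (N := N) n g' g i) where
  map_add f f' := by
    unfold lamFun
    rw [FunLike.coe_add, SlashAction.add_slash,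
      rhoPoly_add_of_isGood n (isGood_cuspForm_slash n f hg') (isGood_cuspForm_slash n f' hg') hg,
      Polynomial.coeff_add]
  map_smul c f := by
    unfold lamFun
    have hc : (⇑(c • f) : ℍ → ℂ) = c • ⇑f := by
      ext z; rfl
    rw [hc, smul_slash_of_det_pos _ hg'.1,
      rhoPoly_smul_of_isGood n (isGood_cuspForm_slash n f hg') c hg, Polynomial.coeff_smul]

theorem lamAt_apply (n : ℕ) {g' g : GL (Fin 2) ℝ} (hg' : g' ∈ M2pos) (hg : g ∈ M2pos) (i : ℕ)
    (f : CuspForm (Gamma0 N) ((n : ℤ) + 2)) :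
    lamAt n g' g i f = (rhoPoly n g (⇑f ∣[(n : ℤ) + 2] g')).coeff i :=
  lamAt_apply_of_isLinearMap n g' g i (isLinearMap_lamFun_lat n hg' hg i) f

theorem lamAt_one_apply (n : ℕ) {g : GL (Fin 2) ℝ} (hg : g ∈ M2pos) (i : ℕ)
    (f : CuspForm (Gamma0 N) ((n : ℤ) + 2)) :
    lamAt n 1 g i f = (rhoPoly n g ⇑f).coeff i := by
  rw [lamAt_apply n (Submonoid.one_mem _) hg, SlashAction.slash_one]

theorem lamAt_eq_zero_of_lt (n : ℕ) {g' g : GL (Fin 2) ℝ} (hg' : g' ∈ M2pos) (hg : g ∈ M2pos)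
    (i : ℕ) (hi : n < i) : lamAt (N := N) n g' g i = 0 := by
  ext f
  rw [lamAt_apply n hg' hg, LinearMap.zero_apply]
  exact Polynomial.coeff_eq_zero_of_natDegree_lt
    (lt_of_le_of_lt (rhoPoly_natDegree_le n g _) hi)

theorem lamAt_congr (n : ℕ) {g₁ g₂ g : GL (Fin 2) ℝ} (i : ℕ)
    (h : ∀ f : CuspForm (Gamma0 N) ((n : ℤ) + 2),
      ⇑f ∣[(n : ℤ) + 2] g₁ = ⇑f ∣[(n : ℤ) + 2] g₂) :
    lamAt (N := N) n g₁ g i = lamAt n g₂ g i := by
  have : lamFun (N := N) n g₁ g i = lamFun n g₂ g i := by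
    funext f
    unfold lamFun
    rw [h f]
  unfold lamAt
  rw [this]

/-- Coset invariance: slashing by `δ γ` with `δ ∈ Γ₀(N)` is the same as slashing by `γ`. -/
theorem lamAt_coset (n : ℕ) (δ : SL(2, ℤ)) (hδ : δ ∈ Gamma0 N) (γ : SL(2, ℤ))
    (g : GL (Fin 2) ℝ) (i : ℕ) :
    lamAt (N := N) n (Matrix.SpecialLinearGroup.mapGL ℝ (δ * γ)) g i =
      lamAt n (Matrix.SpecialLinearGroup.mapGL ℝ γ) g i := by
  apply lamAt_congr
  intro f
  rw [map_mul, SlashAction.slash_mul]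
  congr 1
  exact SlashInvariantFormClass.slash_action_eq f _ (Subgroup.mem_map_of_mem _ hδ)

/-! ### Hecke stability -/

/-- Key identity: for upper triangular `b ∈ M2pos`, `rhoPoly n g (h ∣ b) = rhoPoly n (b * g) h`. -/
theorem rhoPoly_slash_upper (n : ℕ) {h : ℍ → ℂ} (hh : IsGood n h) {b g : GL (Fin 2) ℝ}
    (hb : b ∈ M2pos) (hb10 : b 1 0 = 0) (hg : g ∈ M2pos) :
    rhoPoly n g (h ∣[(n : ℤ) + 2] b) = rhoPoly n (b * g) h := by
  rw [rhoPoly_mul_of_isGood n hh hb hg, rhoPoly_upper_of_isGood n hh hb hb10, polyAct_zero,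
    zero_add]

theorem heckeMatrix_one_zero {p : ℕ} (hp : p ≠ 0) (j : ℕ) :
    (ModularForm.heckeMatrix p j) 1 0 = 0 := by
  have := ModularForm.val_heckeMatrix hp j
  have h2 := congrFun (congrFun this 1) 0
  simpa using h2

theorem heckeDiagMatrix_one_zero {p : ℕ} (hp : p ≠ 0) :
    (ModularForm.heckeDiagMatrix p) 1 0 = 0 := by
  have := ModularForm.val_heckeDiagMatrix hp
  have h2 := congrFun (congrFun this 1) 0
  simpa using h2

theorem lamAt_comp_heckeU (n : ℕ) {g : GL (Fin 2) ℝ} (hg : g ∈ M2pos) (i : ℕ) {p : ℕ}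
    (hp : p ≠ 0) (f : CuspForm (Gamma0 N) ((n : ℤ) + 2)) :
    (rhoPoly n g (ModularForm.heckeU ((n : ℤ) + 2) p ⇑f)).coeff i =
      ∑ j ∈ Finset.range p, lamAt n 1 (ModularForm.heckeMatrix p j * g) i f := by
  have hgood : ∀ j ∈ Finset.range p,
      IsGood n (⇑f ∣[(n : ℤ) + 2] ModularForm.heckeMatrix p j) := fun j _ =>
    isGood_cuspForm_slash n f (heckeMatrix_mem_M2pos hp j)
  rw [ModularForm.heckeU_def, rhoPoly_sum_of_isGood n _ hgood hg, Polynomial.finsetSum_coeff]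
  refine Finset.sum_congr rfl fun j _ => ?_
  rw [rhoPoly_slash_upper n (isGood_cuspForm n f) (heckeMatrix_mem_M2pos hp j)
    (heckeMatrix_one_zero hp j) hg,
    lamAt_one_apply n (Submonoid.mul_mem _ (heckeMatrix_mem_M2pos hp j) hg)]

theorem lamAt_mem_periodLattice (n : ℕ) {g : GL (Fin 2) ℝ} (hg : g ∈ M2pos) (i : ℕ) :
    lamAt (N := N) n 1 g i ∈ periodLattice N n :=
  Submodule.subset_span ⟨g, hg, i, rfl⟩

theorem periodLattice_stable (N : ℕ) [NeZero N] (n : ℕ) (S : Set ℕ) :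
    ∀ t ∈ CuspForm.heckeGenerators N ((n : ℤ) + 2) S, ∀ l ∈ periodLattice N n,
      l ∘ₗ t ∈ periodLattice N n := by
  intro t ht l hl
  induction hl using Submodule.span_induction with
  | zero => simp
  | add x y _ _ hx hy =>
    rw [LinearMap.add_comp]
    exact Submodule.add_mem _ hx hy
  | smul a x _ hx =>
    rw [LinearMap.smul_comp]
    exact Submodule.smul_mem _ a hx
  | mem x hx =>
    obtain ⟨g, hg, i, rfl⟩ := hx
    rcases ht with ⟨ℓ, hℓ, hℓN, -, rfl⟩ | ⟨q, hqN, hq, -, rfl⟩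
    · -- `T_ℓ`
      have hℓ0 : ℓ ≠ 0 := hℓ.ne_zero
      have key : lamAt n 1 g i ∘ₗ CuspForm.heckeTLin ((n : ℤ) + 2) hℓ hℓN =
          ∑ j ∈ Finset.range ℓ, lamAt n 1 (ModularForm.heckeMatrix ℓ j * g) i +
            lamAt n 1 (ModularForm.heckeDiagMatrix ℓ * g) i := by
        ext f
        rw [LinearMap.comp_apply, lamAt_one_apply n hg, CuspForm.coe_heckeTLin_apply,
          ModularForm.heckeT_eq_heckeU_add,
          rhoPoly_add_of_isGood n ?_ (isGood_cuspForm_slash n f (heckeDiagMatrix_mem_M2pos hℓ0)) hg,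
          Polynomial.coeff_add, lamAt_comp_heckeU n hg i hℓ0 f,
          rhoPoly_slash_upper n (isGood_cuspForm n f) (heckeDiagMatrix_mem_M2pos hℓ0)
            (heckeDiagMatrix_one_zero hℓ0) hg,
          LinearMap.add_apply, LinearMap.sum_apply,
          lamAt_one_apply n (Submonoid.mul_mem _ (heckeDiagMatrix_mem_M2pos hℓ0) hg)]
        rw [ModularForm.heckeU_def]
        exact IsGood.sum _ fun j _ => isGood_cuspForm_slash n f (heckeMatrix_mem_M2pos hℓ0 j)
      rw [key]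
      refine Submodule.add_mem _ (Submodule.sum_mem _ fun j _ => ?_) ?_
      · exact lamAt_mem_periodLattice n (Submonoid.mul_mem _ (heckeMatrix_mem_M2pos hℓ0 j) hg) i
      · exact lamAt_mem_periodLattice n (Submonoid.mul_mem _ (heckeDiagMatrix_mem_M2pos hℓ0) hg) i
    · -- `U_q`
      have hq0 : q ≠ 0 := hq.ne_zero
      have key : lamAt n 1 g i ∘ₗ CuspForm.heckeULin ((n : ℤ) + 2) hqN =
          ∑ j ∈ Finset.range q, lamAt n 1 (ModularForm.heckeMatrix q j * g) i := by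
        ext f
        rw [LinearMap.comp_apply, lamAt_one_apply n hg, CuspForm.coe_heckeULin_apply,
          lamAt_comp_heckeU n hg i hq0 f, LinearMap.sum_apply]
      rw [key]
      exact Submodule.sum_mem _ fun j _ =>
        lamAt_mem_periodLattice n (Submonoid.mul_mem _ (heckeMatrix_mem_M2pos hq0 j) hg) i

/-! ### Separation -/

theorem periodLattice_sep (N : ℕ) [NeZero N] (n : ℕ) :
    ∀ f : CuspForm (Gamma0 N) ((n : ℤ) + 2), (∀ l ∈ periodLattice N n, l f = 0) → f = 0 := by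
  intro f hf
  apply sep_eq_zero_of_rhoPoly_eq_zero_of n f (isCuspFnAll_cuspForm f)
    (fun h hh => eichler_spec hh (n + 1))
    (fun g hg z => rhoPoly_eval n (isCuspFnAll_cuspForm f) hg z)
  intro γ
  ext i
  have h := hf _ (lamAt_mem_periodLattice n (mapGL_mem_M2pos γ) i)
  rw [lamAt_one_apply n (mapGL_mem_M2pos γ)] at h
  rw [h, Polynomial.coeff_zero]

end Fermat.Agent.S22x
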