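import Fermat.Agent.S22x.LatticeDefs

set_option autoImplicit false

namespace Fermat.Agent.S22x

open UpperHalfPlane CongruenceSubgroup
open scoped MatrixGroups ModularForm Manifold

/-- slash by `δ γ` with `δ ∈ Γ₀(N)` equals slash by `γ` on level-`Γ₀(N)` forms. -/
theorem slash_mapGL_mul_of_mem_Gamma0 {N : ℕ} {k : ℤ} (f : CuspForm (Gamma0 N) k)
    {δ : SL(2, ℤ)} (hδ : δ ∈ Gamma0 N) (γ : SL(2, ℤ)) :
    (⇑f ∣[k] (Matrix.SpecialLinearGroup.mapGL ℝ (δ * γ) : GL (Fin 2) ℝ)) =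
      (⇑f ∣[k] (Matrix.SpecialLinearGroup.mapGL ℝ γ : GL (Fin 2) ℝ)) := by
  rw [map_mul, SlashAction.slash_mul]
  congr 1
  exact SlashInvariantFormClass.slash_action_eq f _ ⟨δ, hδ, rfl⟩

theorem lamAt_mapGL_mul_of_mem_Gamma0 {N : ℕ} (n : ℕ) {δ : SL(2, ℤ)} (hδ : δ ∈ Gamma0 N)
    (γ : SL(2, ℤ)) (g : GL (Fin 2) ℝ) (i : ℕ) :
    lamAt (N := N) n (Matrix.SpecialLinearGroup.mapGL ℝ (δ * γ)) g i =
      lamAt (N := N) n (Matrix.SpecialLinearGroup.mapGL ℝ γ) g i := by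
  have hfun : lamFun (N := N) n (Matrix.SpecialLinearGroup.mapGL ℝ (δ * γ)) g i =
      lamFun (N := N) n (Matrix.SpecialLinearGroup.mapGL ℝ γ) g i := by
    funext f
    unfold lamFun
    rw [slash_mapGL_mul_of_mem_Gamma0 f hδ γ]
  unfold lamAt
  rw [hfun]

/-- The functionals `lamAt n (mapGL γ) g i`, `γ ∈ SL(2, ℤ)`, `i ≤ n`, form a finite set
(they only depend on the coset `Γ₀(N) γ`). -/
theorem finite_lamAt_mapGL (N : ℕ) [NeZero N] (n : ℕ) (g : GL (Fin 2) ℝ) :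
    {l : CuspForm (Gamma0 N) ((n : ℤ) + 2) →ₗ[ℂ] ℂ | ∃ γ : SL(2, ℤ), ∃ i ∈ Finset.range (n + 1),
      l = lamAt n (Matrix.SpecialLinearGroup.mapGL ℝ γ) g i}.Finite := by
  classical
  -- `G γ' i := lamAt n (mapGL γ'⁻¹) g i` is constant on left cosets of `Γ₀(N)`
  let G : SL(2, ℤ) → ℕ → (CuspForm (Gamma0 N) ((n : ℤ) + 2) →ₗ[ℂ] ℂ) :=
    fun γ' i => lamAt n (Matrix.SpecialLinearGroup.mapGL ℝ γ'⁻¹) g i
  have hG : ∀ a b : SL(2, ℤ), QuotientGroup.leftRel (Gamma0 N) a b → G a = G b := by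
    intro a b hab
    rw [QuotientGroup.leftRel_apply] at hab
    funext i
    show lamAt n (Matrix.SpecialLinearGroup.mapGL ℝ a⁻¹) g i =
      lamAt n (Matrix.SpecialLinearGroup.mapGL ℝ b⁻¹) g i
    have h1 : a⁻¹ = (a⁻¹ * b) * b⁻¹ := by group
    rw [h1]
    exact lamAt_mapGL_mul_of_mem_Gamma0 n hab b⁻¹ g i
  let Gq : (SL(2, ℤ) ⧸ Gamma0 N) → ℕ → (CuspForm (Gamma0 N) ((n : ℤ) + 2) →ₗ[ℂ] ℂ) :=
    Quotient.lift G hG
  have : Finite (SL(2, ℤ) ⧸ Gamma0 N) := Subgroup.finite_quotient_of_finiteIndex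
  have hfin : (Set.range fun q : (SL(2, ℤ) ⧸ Gamma0 N) × Fin (n + 1) => Gq q.1 q.2).Finite :=
    Set.finite_range _
  refine hfin.subset ?_
  rintro l ⟨γ, i, hi, rfl⟩
  refine ⟨(QuotientGroup.mk γ⁻¹, ⟨i, Finset.mem_range.mp hi⟩), ?_⟩
  show G γ⁻¹ i = _
  show lamAt n (Matrix.SpecialLinearGroup.mapGL ℝ γ⁻¹⁻¹) g i = _
  rw [inv_inv]

theorem maninLattice_fg (N : ℕ) [NeZero N] (n : ℕ) : (maninLattice N n).FG :=
  Submodule.fg_span (finite_lamAt_mapGL N n _)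

end Fermat.Agent.S22x
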