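import Fermat.Agent.S22x.LatticeDefs
import Fermat.Agent.S22x.PolyAct
import Fermat.Agent.S22x.Hermite
import Fermat.Agent.S22x.CuspFn
import Fermat.Agent.S22x.ManinFinite
import Fermat.Agent.S22x.Cocycle

/-!
# S22 helper library: the period lattice is finitely generated

Hermite normal form reduces to `SL(2, ℤ)`-periods; induction over words in `S`, `T` reduces
those to the finitely many functionals `f ↦ coeff_j ρ_S (f ∣ r)`, `r` running over coset
representatives of `Γ₀(N)` in `SL(2, ℤ)` (the generators of `maninLattice`).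
-/

set_option autoImplicit false

namespace Fermat.Agent.S22x

open UpperHalfPlane Derivative Polynomial CongruenceSubgroup
open scoped MatrixGroups ModularForm Manifold
open Matrix.SpecialLinearGroup (mapGL)

variable {N : ℕ} [NeZero N] (n : ℕ)

/-- `lamFun` is linear for integral matrices of positive determinant. -/
theorem isLinearMap_lamFun {g' g : GL (Fin 2) ℝ} (hg' : g' ∈ M2pos) (hg : g ∈ M2pos) (i : ℕ) :
    IsLinearMap ℂ (lamFun (N := N) n g' g i) where
  map_add f f' := by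
    have h : (⇑(f + f') : ℍ → ℂ) = ⇑f + ⇑f' := rfl
    rw [lamFun, lamFun, lamFun, h, SlashAction.add_slash,
      rhoPoly_add n (IsCuspFnAll.slash (isCuspFnAll_cuspForm f) hg')
        (IsCuspFnAll.slash (isCuspFnAll_cuspForm f') hg') hg, coeff_add]
  map_smul c f := by
    have h : (⇑(c • f) : ℍ → ℂ) = c • ⇑f := rfl
    have hσ : UpperHalfPlane.σ g' = .refl ℝ ℂ := by
      rw [UpperHalfPlane.σ, if_pos]
      simpa [Matrix.GeneralLinearGroup.val_det_apply] using hg'.1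
    rw [lamFun, lamFun, h, ModularForm.smul_slash, hσ, ContinuousAlgEquiv.refl_apply,
      rhoPoly_smul n (IsCuspFnAll.slash (isCuspFnAll_cuspForm f) hg') c hg, coeff_smul]

theorem lamAt_apply_fg {g' g : GL (Fin 2) ℝ} (hg' : g' ∈ M2pos) (hg : g ∈ M2pos) (i : ℕ)
    (f : CuspForm (Gamma0 N) ((n : ℤ) + 2)) :
    lamAt n g' g i f = (rhoPoly n g (⇑f ∣[(n : ℤ) + 2] g')).coeff i :=
  lamAt_apply_of_isLinearMap n g' g i (isLinearMap_lamFun n hg' hg i) f

theorem lamAt_one_apply_fg {g : GL (Fin 2) ℝ} (hg : g ∈ M2pos) (i : ℕ)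
    (f : CuspForm (Gamma0 N) ((n : ℤ) + 2)) :
    lamAt n 1 g i f = (rhoPoly n g ⇑f).coeff i := by
  rw [lamAt_apply_fg n M2pos.one_mem hg, SlashAction.slash_one]

/-- The integer matrix describing `polyAct n g` on coefficients. -/
noncomputable def actCoeff {g : GL (Fin 2) ℝ} (hg : g ∈ M2pos) : ℕ → ℕ → ℤ :=
  (polyAct_coeff_int n hg).choose

theorem actCoeff_spec {g : GL (Fin 2) ℝ} (hg : g ∈ M2pos) (p : Polynomial ℂ) (j : ℕ) :
    (polyAct n g p).coeff j =
      ∑ i ∈ Finset.range (n + 1), (actCoeff n hg j i : ℂ) * p.coeff i :=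
  (polyAct_coeff_int n hg).choose_spec p j

/-- General cocycle relation on coefficient functionals. -/
theorem lamAt_one_mul (g g' : GL (Fin 2) ℝ) (hg : g ∈ M2pos) (hg' : g' ∈ M2pos) (j : ℕ) :
    (lamAt n 1 (g * g') j : CuspForm (Gamma0 N) ((n : ℤ) + 2) →ₗ[ℂ] ℂ) =
      (∑ i ∈ Finset.range (n + 1), actCoeff n hg' j i • lamAt n 1 g i) + lamAt n g g' j := by
  ext f
  rw [lamAt_one_apply_fg n (M2pos.mul_mem hg hg'), rhoPoly_mul n (isCuspFnAll_cuspForm f) hg hg',
    coeff_add, actCoeff_spec n hg', LinearMap.add_apply, lamAt_apply_fg n hg hg']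
  simp [lamAt_one_apply_fg n hg, LinearMap.sum_apply]

/-- Right multiplication by an upper triangular matrix: the coefficient functionals transform
by an integer matrix. -/
theorem lamAt_one_mul_upper (g b : GL (Fin 2) ℝ) (hg : g ∈ M2pos) (hb : b ∈ M2pos)
    (hb10 : b 1 0 = 0) (j : ℕ) :
    (lamAt n 1 (g * b) j : CuspForm (Gamma0 N) ((n : ℤ) + 2) →ₗ[ℂ] ℂ) =
      ∑ i ∈ Finset.range (n + 1), actCoeff n hb j i • lamAt n 1 g i := by
  rw [lamAt_one_mul n g b hg hb j]
  have : (lamAt n g b j : CuspForm (Gamma0 N) ((n : ℤ) + 2) →ₗ[ℂ] ℂ) = 0 := by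
    ext f
    rw [lamAt_apply_fg n hg hb,
      rhoPoly_upper n (IsCuspFnAll.slash (isCuspFnAll_cuspForm f) hg) hb hb10]
    simp
  rw [this, add_zero]

/-- Coefficients beyond the degree bound vanish. -/
theorem lamAt_eq_zero_of_lt_fg {g' g : GL (Fin 2) ℝ} (hg' : g' ∈ M2pos) (hg : g ∈ M2pos) {j : ℕ}
    (hj : n < j) : (lamAt n g' g j : CuspForm (Gamma0 N) ((n : ℤ) + 2) →ₗ[ℂ] ℂ) = 0 := by
  ext f
  rw [lamAt_apply_fg n hg' hg, LinearMap.zero_apply]
  exact coeff_eq_zero_of_natDegree_lt (lt_of_le_of_lt (rhoPoly_natDegree_le n _ _) hj)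

/-- Coset invariance of the Manin generators. -/
theorem lamAt_coset_fg (δ γ : SL(2, ℤ)) (hδ : δ ∈ Gamma0 N) {g : GL (Fin 2) ℝ} (hg : g ∈ M2pos)
    (j : ℕ) :
    (lamAt n (mapGL ℝ (δ * γ)) g j : CuspForm (Gamma0 N) ((n : ℤ) + 2) →ₗ[ℂ] ℂ) =
      lamAt n (mapGL ℝ γ) g j := by
  ext f
  rw [lamAt_apply_fg n (mapGL_mem_M2pos _) hg, lamAt_apply_fg n (mapGL_mem_M2pos _) hg, map_mul,
    SlashAction.slash_mul,
    SlashInvariantFormClass.slash_action_eq f _ (Subgroup.mem_map_of_mem (mapGL ℝ) hδ)]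

theorem lamAt_manin_mem (γ : SL(2, ℤ)) (j : ℕ) :
    (lamAt n (mapGL ℝ γ) (mapGL ℝ ModularGroup.S) j :
      CuspForm (Gamma0 N) ((n : ℤ) + 2) →ₗ[ℂ] ℂ) ∈ maninLattice N n := by
  by_cases hj : j < n + 1
  · exact Submodule.subset_span ⟨γ, j, Finset.mem_range.mpr hj, rfl⟩
  · rw [lamAt_eq_zero_of_lt_fg n (mapGL_mem_M2pos _) (mapGL_mem_M2pos _) (by omega)]
    exact Submodule.zero_mem _

/-- Induction step for an upper triangular generator. -/
theorem lamAt_SL_step_upper (x u : SL(2, ℤ)) (hu : (mapGL ℝ u : GL (Fin 2) ℝ) 1 0 = 0)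
    (ih : ∀ j, (lamAt n 1 (mapGL ℝ x) j :
      CuspForm (Gamma0 N) ((n : ℤ) + 2) →ₗ[ℂ] ℂ) ∈ maninLattice N n) (j : ℕ) :
    (lamAt n 1 (mapGL ℝ (x * u)) j :
      CuspForm (Gamma0 N) ((n : ℤ) + 2) →ₗ[ℂ] ℂ) ∈ maninLattice N n := by
  rw [map_mul, lamAt_one_mul_upper n _ _ (mapGL_mem_M2pos x) (mapGL_mem_M2pos u) hu]
  exact Submodule.sum_mem _ fun i _ => Submodule.smul_mem _ _ (ih i)

/-- Induction step for the generator `S`. -/
theorem lamAt_SL_step_S (x : SL(2, ℤ))
    (ih : ∀ j, (lamAt n 1 (mapGL ℝ x) j :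
      CuspForm (Gamma0 N) ((n : ℤ) + 2) →ₗ[ℂ] ℂ) ∈ maninLattice N n) (j : ℕ) :
    (lamAt n 1 (mapGL ℝ (x * ModularGroup.S)) j :
      CuspForm (Gamma0 N) ((n : ℤ) + 2) →ₗ[ℂ] ℂ) ∈ maninLattice N n := by
  rw [map_mul, lamAt_one_mul n _ _ (mapGL_mem_M2pos x) (mapGL_mem_M2pos ModularGroup.S)]
  exact Submodule.add_mem _
    (Submodule.sum_mem _ fun i _ => Submodule.smul_mem _ _ (ih i)) (lamAt_manin_mem n x j)

theorem mapGL_apply_entry (g : SL(2, ℤ)) (i j : Fin 2) :
    (mapGL ℝ g : GL (Fin 2) ℝ) i j = ((g i j : ℤ) : ℝ) := by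
  simp

theorem S_inv_eq_S_mul_S_mul_S :
    (ModularGroup.S)⁻¹ = ModularGroup.S * ModularGroup.S * ModularGroup.S := by
  rw [inv_eq_iff_mul_eq_one]
  ext i j
  fin_cases i <;> fin_cases j <;> simp [ModularGroup.S, Matrix.mul_apply, Fin.sum_univ_two]

/-- Key induction: all `SL(2, ℤ)`-period functionals lie in `maninLattice`. -/
theorem lamAt_SL_mem_maninLattice (γ : SL(2, ℤ)) (j : ℕ) :
    (lamAt n 1 (mapGL ℝ γ) j : CuspForm (Gamma0 N) ((n : ℤ) + 2) →ₗ[ℂ] ℂ) ∈
      maninLattice N n := by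
  have hclosure : Submonoid.closure
      (({ModularGroup.S, ModularGroup.T} : Set SL(2, ℤ)) ∪ ({ModularGroup.S, ModularGroup.T})⁻¹) =
        ⊤ := by
    rw [← Subgroup.closure_toSubmonoid, SpecialLinearGroup.SL2Z_generators]
    rfl
  revert j
  refine Submonoid.induction_of_closure_eq_top_right hclosure γ ?_ ?_
  · intro j
    have h0 : (lamAt n 1 (mapGL ℝ (1 : SL(2, ℤ))) j :
        CuspForm (Gamma0 N) ((n : ℤ) + 2) →ₗ[ℂ] ℂ) = 0 := by
      ext f
      rw [lamAt_one_apply_fg n (mapGL_mem_M2pos 1),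
        rhoPoly_upper n (isCuspFnAll_cuspForm f) (mapGL_mem_M2pos 1) (by simp)]
      simp
    rw [h0]
    exact Submodule.zero_mem _
  · intro x y hy ih
    have hT : (mapGL ℝ ModularGroup.T : GL (Fin 2) ℝ) 1 0 = 0 := by
      simp [ModularGroup.T]
    have hTinv : (mapGL ℝ (ModularGroup.T)⁻¹ : GL (Fin 2) ℝ) 1 0 = 0 := by
      rw [mapGL_apply_entry, ModularGroup.coe_T_inv]
      simp
    rcases hy with hy | hy
    · rcases hy with rfl | hy
      · exact lamAt_SL_step_S n x ih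
      · rw [Set.mem_singleton_iff] at hy
        subst hy
        exact lamAt_SL_step_upper n x _ hT ih
    · rw [Set.mem_inv] at hy
      rcases hy with hy | hy
      · have hy' : y = (ModularGroup.S)⁻¹ := by rw [← hy, inv_inv]
        subst hy'
        rw [S_inv_eq_S_mul_S_mul_S, ← mul_assoc, ← mul_assoc]
        exact lamAt_SL_step_S n _ (lamAt_SL_step_S n _ (lamAt_SL_step_S n x ih))
      · rw [Set.mem_singleton_iff] at hy
        have hy' : y = (ModularGroup.T)⁻¹ := by rw [← hy, inv_inv]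
        subst hy'
        exact lamAt_SL_step_upper n x _ hTinv ih

theorem periodLattice_le_maninLattice (N : ℕ) [NeZero N] (n : ℕ) :
    periodLattice N n ≤ maninLattice N n := by
  refine Submodule.span_le.mpr ?_
  rintro l ⟨g, hg, j, rfl⟩
  obtain ⟨γ, b, hb, hb10, rfl⟩ := exists_SL2Z_mul_upper hg
  rw [SetLike.mem_coe, lamAt_one_mul_upper n _ b (mapGL_mem_M2pos γ) hb hb10]
  exact Submodule.sum_mem _ fun i _ =>
    Submodule.smul_mem _ _ (lamAt_SL_mem_maninLattice n γ i)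

theorem periodLattice_fg (N : ℕ) [NeZero N] (n : ℕ) : (periodLattice N n).FG := by
  have hN : IsNoetherian ℤ (maninLattice N n) :=
    isNoetherian_of_fg_of_noetherian _ (maninLattice_fg N n)
  have h := (isNoetherian_def.mp hN)
    (Submodule.comap (maninLattice N n).subtype (periodLattice N n))
  have h2 := h.map (maninLattice N n).subtype
  rwa [Submodule.map_comap_subtype, inf_eq_right.mpr (periodLattice_le_maninLattice N n)] at h2

end Fermat.Agent.S22x
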