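import Mathlib
import Fermat.Prelude.Def_CuspForm_HeckeAlgebra
import Fermat.Agent.S22x.FinalAlgebra

/-!
# S22: the trivial weights

For `k ≤ 0` or `k` odd there are no nonzero cusp forms on `Γ₀(N)`, hence the Hecke algebra is
trivially finite over `ℤ`.
-/

set_option autoImplicit false

namespace Fermat.Agent.S22x

open CongruenceSubgroup UpperHalfPlane

variable (N : ℕ) [NeZero N] (k : ℤ)

theorem cuspForm_eq_zero_of_neg_weight (hk : k < 0) (f : CuspForm (Gamma0 N) k) : f = 0 := by
  have h := ModularForm.isZero_of_neg_weight hk (ModularFormClass.modularForm f)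
  ext z
  have h2 := congrArg (fun g => g z) h
  simpa using h2

theorem cuspForm_eq_zero_of_weight_zero (f : CuspForm (Gamma0 N) 0) : f = 0 := by
  obtain ⟨c, hc⟩ := ModularForm.eq_const_of_weight_zero (ModularFormClass.modularForm f)
  have hzero : IsZeroAtImInfty (f : ℍ → ℂ) := CuspFormClass.zero_at_infty f
  have hfc : (f : ℍ → ℂ) = Function.const ℍ c := hc
  have hc0 : c = 0 := by
    rw [hfc, IsZeroAtImInfty, Filter.ZeroAtFilter] at hzero
    exact tendsto_nhds_unique tendsto_const_nhds hzero
  ext z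
  rw [hfc, hc0]
  rfl

omit [NeZero N] in
theorem neg_one_mem_Gamma0_mapGL :
    (-1 : GL (Fin 2) ℝ) ∈ ((Gamma0 N : Subgroup (Matrix.SpecialLinearGroup (Fin 2) ℤ)) :
      Subgroup (GL (Fin 2) ℝ)) := by
  refine ⟨-1, ?_, ?_⟩
  · simp [Gamma0_mem]
  · ext i j
    simp [Matrix.SpecialLinearGroup.mapGL]

theorem cuspForm_eq_zero_of_odd_weight (hk : Odd k) (f : CuspForm (Gamma0 N) k) : f = 0 := by
  have h := ModularForm.eq_zero_of_neg_one_mem (neg_one_mem_Gamma0_mapGL N) hk
    (ModularFormClass.modularForm f)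
  ext z
  have h2 := congrArg (fun g => g z) h
  simpa using h2

theorem moduleFinite_heckeAlgebra_of_nonpos_or_odd (S : Set ℕ) (hk : k ≤ 0 ∨ Odd k) :
    Module.Finite ℤ (CuspForm.heckeAlgebra N k S) := by
  have : Subsingleton (CuspForm (Gamma0 N) k) := by
    refine ⟨fun a b => ?_⟩
    have hz : ∀ f : CuspForm (Gamma0 N) k, f = 0 := by
      intro f
      rcases hk with hk | hk
      · rcases hk.lt_or_eq with hk | rfl
        · exact cuspForm_eq_zero_of_neg_weight N k hk f
        · exact cuspForm_eq_zero_of_weight_zero N f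
      · exact cuspForm_eq_zero_of_odd_weight N k hk f
    rw [hz a, hz b]
  exact finite_heckeAlgebra_of_subsingleton N k S

end Fermat.Agent.S22x
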