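/-
S22 helper library: Hecke stability of the period lattice, *relative to* the cocycle facts about
`rhoPoly` (bundled in `LsCocycleFacts`, to be supplied by Cocycle.lean).
-/
import Fermat.Agent.S22x.LatticeDefs
import Fermat.Agent.S22x.PolyAct
import Fermat.Agent.S22x.CuspFn

set_option autoImplicit false

namespace Fermat.Agent.S22x

open UpperHalfPlane CongruenceSubgroup ModularForm Matrix.SpecialLinearGroup
open scoped MatrixGroups ModularForm Manifold

/-- The facts about the period polynomials used by the lattice arguments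
(exactly the interface statements `rhoPoly_add`, `rhoPoly_smul`, `rhoPoly_mul`, `rhoPoly_upper`). -/
structure LsCocycleFacts (n : ℕ) : Prop where
  add : ∀ {h h' : ℍ → ℂ}, IsCuspFnAll ((n : ℤ) + 2) h → IsCuspFnAll ((n : ℤ) + 2) h' →
    ∀ {g : GL (Fin 2) ℝ}, g ∈ M2pos → rhoPoly n g (h + h') = rhoPoly n g h + rhoPoly n g h'
  smul : ∀ {h : ℍ → ℂ}, IsCuspFnAll ((n : ℤ) + 2) h → ∀ (c : ℂ) {g : GL (Fin 2) ℝ}, g ∈ M2pos →
    rhoPoly n g (c • h) = c • rhoPoly n g h
  mul : ∀ {h : ℍ → ℂ}, IsCuspFnAll ((n : ℤ) + 2) h → ∀ {g g' : GL (Fin 2) ℝ}, g ∈ M2pos →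
    g' ∈ M2pos →
    rhoPoly n (g * g') h = polyAct n g' (rhoPoly n g h) + rhoPoly n g' (h ∣[(n : ℤ) + 2] g)
  upper : ∀ {h : ℍ → ℂ}, IsCuspFnAll ((n : ℤ) + 2) h → ∀ {g : GL (Fin 2) ℝ}, g ∈ M2pos →
    g 1 0 = 0 → rhoPoly n g h = 0

theorem ls_heckeMatrix_lower {p : ℕ} (hp : p ≠ 0) (j : ℕ) : (heckeMatrix p j) 1 0 = 0 := by
  show (heckeMatrix p j).val 1 0 = 0
  rw [val_heckeMatrix hp]
  simp

theorem ls_heckeDiagMatrix_lower {p : ℕ} (hp : p ≠ 0) : (heckeDiagMatrix p) 1 0 = 0 := by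
  show (heckeDiagMatrix p).val 1 0 = 0
  rw [val_heckeDiagMatrix hp]
  simp

theorem ls_det_heckeMatrix {p : ℕ} (hp : p ≠ 0) (j : ℕ) : (heckeMatrix p j).val.det = p := by
  have := det_heckeMatrix hp j
  rwa [Matrix.GeneralLinearGroup.val_det_apply] at this

/-! ### explicit period of `f ∣ g` -/

/-- `f ∣[k] g` has period `N * det g` (extracted from the proof of `isCuspFnAll_cuspForm`). -/
theorem ls_slash_periodic {N : ℕ} {k : ℤ} (f : CuspForm (Gamma0 N) k) {g : GL (Fin 2) ℝ}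
    (hg : g ∈ M2pos) (z : ℍ) :
    (⇑f ∣[k] g) (((N : ℝ) * g.val.det) +ᵥ z) = (⇑f ∣[k] g) z := by
  obtain ⟨-, hint⟩ := id hg
  obtain ⟨a, ha⟩ := hint 0 0
  obtain ⟨c, hc⟩ := hint 1 0
  rw [← slash_upperRightHom_apply k (⇑f ∣[k] g), ← SlashAction.slash_mul,
    ← mapGL_conjTranslate_mul N ha hc, SlashAction.slash_mul]
  rw [SlashInvariantFormClass.slash_action_eq f _
    (Subgroup.mem_map_of_mem _ (conjTranslate_mem_Gamma0 N a c))]

/-- A finite sum of slashes of a cusp form by integral matrices of the same determinant is again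
a cusp function after any further integral slash. -/
theorem ls_isCuspFnAll_sum_slash {N : ℕ} [NeZero N] {k : ℤ} (f : CuspForm (Gamma0 N) k)
    {ι : Type*} (s : Finset ι) (δ : ι → GL (Fin 2) ℝ) (hδ : ∀ j ∈ s, δ j ∈ M2pos)
    (d : ℝ) (hd : 0 < d) (hdet : ∀ j ∈ s, (δ j).val.det = d) :
    IsCuspFnAll k (∑ j ∈ s, ⇑f ∣[k] δ j) := by
  classical
  intro g hg
  rw [SlashAction.sum_slash]
  have hper : ∀ j ∈ s, ∀ z : ℍ, ((⇑f ∣[k] δ j) ∣[k] g) (((N : ℝ) * (d * g.val.det)) +ᵥ z) =
      ((⇑f ∣[k] δ j) ∣[k] g) z := by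
    intro j hj z
    rw [← SlashAction.slash_mul]
    have := ls_slash_periodic f (M2pos.mul_mem (hδ j hj) hg) z
    rwa [Units.val_mul, Matrix.det_mul, hdet j hj] at this
  have hw : 0 < (N : ℝ) * (d * g.val.det) :=
    mul_pos (by exact_mod_cast Nat.pos_of_ne_zero (NeZero.ne N)) (mul_pos hd hg.1)
  refine ⟨?_, ⟨_, hw, fun z => ?_⟩, ?_⟩
  · -- holomorphy
    have : ∀ t : Finset ι, t ⊆ s → MDiff (∑ j ∈ t, (⇑f ∣[k] δ j) ∣[k] g) := by
      intro t
      induction t using Finset.induction_on with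
      | empty =>
        intro _
        simp only [Finset.sum_empty]
        exact mdifferentiable_const
      | insert a t ha ih =>
        intro hsub
        rw [Finset.sum_insert ha]
        exact ((f.holo'.slash k (δ a)).slash k g).add
          (ih ((Finset.subset_insert a t).trans hsub))
    exact this s (Finset.Subset.refl s)
  · -- periodicity
    rw [Finset.sum_apply, Finset.sum_apply]
    exact Finset.sum_congr rfl fun j hj => hper j hj z
  · -- zero at infinity
    have : ∀ t : Finset ι, t ⊆ s → IsZeroAtImInfty (∑ j ∈ t, (⇑f ∣[k] δ j) ∣[k] g) := by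
      intro t
      induction t using Finset.induction_on with
      | empty =>
        intro _
        simp only [Finset.sum_empty]
        exact (zeroAtImInftySubmodule ℂ).zero_mem
      | insert a t ha ih =>
        intro hsub
        rw [Finset.sum_insert ha]
        have ha' : a ∈ s := hsub (Finset.mem_insert_self a t)
        have h1 : IsZeroAtImInfty ((⇑f ∣[k] δ a) ∣[k] g) := by
          rw [← SlashAction.slash_mul]
          exact (isCuspFnAll_cuspForm f _ (M2pos.mul_mem (hδ a ha') hg)).zero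
        exact (zeroAtImInftySubmodule ℂ).add_mem h1
          (ih ((Finset.subset_insert a t).trans hsub))
    exact this s (Finset.Subset.refl s)

section

variable {N : ℕ} [NeZero N] {n : ℕ}

/-- `lamFun n 1 g i` is linear. -/
theorem ls_isLinearMap_lamFun_one (C : LsCocycleFacts n) {g : GL (Fin 2) ℝ}
    (hg : g ∈ M2pos) (i : ℕ) : IsLinearMap ℂ (lamFun (N := N) n 1 g i) where
  map_add f f' := by
    simp only [lamFun, SlashAction.slash_one]
    rw [FunLike.coe_add, C.add (isCuspFnAll_cuspForm f) (isCuspFnAll_cuspForm f') hg,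
      Polynomial.coeff_add]
  map_smul c f := by
    simp only [lamFun, SlashAction.slash_one]
    rw [FunLike.coe_smul, C.smul (isCuspFnAll_cuspForm f) c hg, Polynomial.coeff_smul]

theorem ls_lamAt_one_apply (C : LsCocycleFacts n) {g : GL (Fin 2) ℝ}
    (hg : g ∈ M2pos) (i : ℕ) (f : CuspForm (Gamma0 N) ((n : ℤ) + 2)) :
    lamAt n 1 g i f = (rhoPoly n g ⇑f).coeff i := by
  rw [lamAt_apply_of_isLinearMap n 1 g i (ls_isLinearMap_lamFun_one C hg i), SlashAction.slash_one]

theorem ls_lamAt_one_mem_periodLattice {g : GL (Fin 2) ℝ} (hg : g ∈ M2pos) (i : ℕ) :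
    (lamAt n 1 g i : CuspForm (Gamma0 N) ((n : ℤ) + 2) →ₗ[ℂ] ℂ) ∈ periodLattice N n :=
  Submodule.subset_span ⟨g, hg, i, rfl⟩

/-- Key identity: the period polynomial of `h ∣ δ` for upper triangular `δ`. -/
theorem ls_rhoPoly_slash_upper (C : LsCocycleFacts n) {h : ℍ → ℂ} (hh : IsCuspFnAll ((n : ℤ) + 2) h)
    {δ g : GL (Fin 2) ℝ} (hδ : δ ∈ M2pos) (hδ10 : δ 1 0 = 0) (hg : g ∈ M2pos) :
    rhoPoly n g (h ∣[(n : ℤ) + 2] δ) = rhoPoly n (δ * g) h := by
  rw [C.mul hh hδ hg, C.upper hh hδ hδ10, polyAct_zero, zero_add]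

/-- additivity of `rhoPoly` over a finite sum of slashes of a cusp form by integral matrices of
equal determinant -/
theorem ls_rhoPoly_sum_slash (C : LsCocycleFacts n) (f : CuspForm (Gamma0 N) ((n : ℤ) + 2))
    {ι : Type*} (s : Finset ι) (δ : ι → GL (Fin 2) ℝ) (hδ : ∀ j ∈ s, δ j ∈ M2pos)
    (d : ℝ) (hd : 0 < d) (hdet : ∀ j ∈ s, (δ j).val.det = d)
    {g : GL (Fin 2) ℝ} (hg : g ∈ M2pos) :
    rhoPoly n g (∑ j ∈ s, ⇑f ∣[(n : ℤ) + 2] δ j) =
      ∑ j ∈ s, rhoPoly n g (⇑f ∣[(n : ℤ) + 2] δ j) := by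
  classical
  induction s using Finset.induction_on with
  | empty =>
    simp only [Finset.sum_empty]
    have h0 : IsCuspFnAll ((n : ℤ) + 2) (0 : ℍ → ℂ) := by
      have := ls_isCuspFnAll_sum_slash f (∅ : Finset ι) δ (by simp) d hd (by simp)
      simpa using this
    have := C.smul h0 0 hg
    simpa using this
  | insert a s ha ih =>
    have hsub : ∀ j ∈ s, j ∈ insert a s := fun j hj => Finset.mem_insert_of_mem hj
    rw [Finset.sum_insert ha, Finset.sum_insert ha,
      C.add ((isCuspFnAll_cuspForm f).slash (hδ a (Finset.mem_insert_self a s)))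
        (ls_isCuspFnAll_sum_slash f s δ (fun j hj => hδ j (hsub j hj)) d hd
          (fun j hj => hdet j (hsub j hj))) hg,
      ih (fun j hj => hδ j (hsub j hj)) (fun j hj => hdet j (hsub j hj))]

/-- The period polynomial of `U_p f` (the sum of the `heckeMatrix` slashes). -/
theorem ls_rhoPoly_heckeU (C : LsCocycleFacts n) (f : CuspForm (Gamma0 N) ((n : ℤ) + 2))
    {p : ℕ} (hp : p ≠ 0) {g : GL (Fin 2) ℝ} (hg : g ∈ M2pos) :
    rhoPoly n g (heckeU ((n : ℤ) + 2) p ⇑f) =
      ∑ j ∈ Finset.range p, rhoPoly n (heckeMatrix p j * g) ⇑f := by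
  have hppos : (0 : ℝ) < p := by exact_mod_cast Nat.pos_of_ne_zero hp
  rw [heckeU_def, ls_rhoPoly_sum_slash C f (Finset.range p) (fun j => heckeMatrix p j)
    (fun j _ => heckeMatrix_mem_M2pos hp j) (p : ℝ) hppos
    (fun j _ => ls_det_heckeMatrix hp j) hg]
  refine Finset.sum_congr rfl fun j _ => ?_
  exact ls_rhoPoly_slash_upper C (isCuspFnAll_cuspForm f) (heckeMatrix_mem_M2pos hp j)
    (ls_heckeMatrix_lower hp j) hg

/-- The period polynomial of `T_p f`. -/
theorem ls_rhoPoly_heckeT (C : LsCocycleFacts n) (f : CuspForm (Gamma0 N) ((n : ℤ) + 2))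
    {p : ℕ} (hp : p ≠ 0) {g : GL (Fin 2) ℝ} (hg : g ∈ M2pos) :
    rhoPoly n g (heckeT ((n : ℤ) + 2) p ⇑f) =
      (∑ j ∈ Finset.range p, rhoPoly n (heckeMatrix p j * g) ⇑f) +
        rhoPoly n (heckeDiagMatrix p * g) ⇑f := by
  have hppos : (0 : ℝ) < p := by exact_mod_cast Nat.pos_of_ne_zero hp
  have hU : IsCuspFnAll ((n : ℤ) + 2) (heckeU ((n : ℤ) + 2) p ⇑f) := by
    rw [heckeU_def]
    exact ls_isCuspFnAll_sum_slash f (Finset.range p) (fun j => heckeMatrix p j)
      (fun j _ => heckeMatrix_mem_M2pos hp j) (p : ℝ) hppos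
      (fun j _ => ls_det_heckeMatrix hp j)
  rw [heckeT_eq_heckeU_add,
    C.add hU ((isCuspFnAll_cuspForm f).slash (heckeDiagMatrix_mem_M2pos hp)) hg,
    ls_rhoPoly_heckeU C f hp hg,
    ls_rhoPoly_slash_upper C (isCuspFnAll_cuspForm f) (heckeDiagMatrix_mem_M2pos hp)
      (ls_heckeDiagMatrix_lower hp) hg]

/-- **Hecke stability of the period lattice** (relative to the cocycle facts). -/
theorem ls_periodLattice_stable_of_cocycleFacts (C : LsCocycleFacts n) (S : Set ℕ) :
    ∀ t ∈ CuspForm.heckeGenerators N ((n : ℤ) + 2) S, ∀ l ∈ periodLattice N n,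
      l ∘ₗ t ∈ periodLattice N n := by
  intro t ht l hl
  -- reduce to generators of the lattice
  refine Submodule.span_induction (p := fun l _ => l ∘ₗ t ∈ periodLattice N n) ?_ ?_ ?_ ?_ hl
  · rintro l ⟨g, hg, i, rfl⟩
    rcases ht with ⟨p, hp, hpN, -, rfl⟩ | ⟨q, hqN, hq, -, rfl⟩
    · -- `T_p`
      have hp0 : p ≠ 0 := hp.ne_zero
      have hEq : lamAt n 1 g i ∘ₗ CuspForm.heckeTLin ((n : ℤ) + 2) hp hpN =
          (∑ j ∈ Finset.range p, lamAt n 1 (heckeMatrix p j * g) i) +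
            lamAt n 1 (heckeDiagMatrix p * g) i := by
        apply LinearMap.ext
        intro f
        rw [LinearMap.comp_apply, ls_lamAt_one_apply C hg, CuspForm.coe_heckeTLin_apply,
          ls_rhoPoly_heckeT C f hp0 hg, LinearMap.add_apply, LinearMap.sum_apply,
          Polynomial.coeff_add, Polynomial.finsetSum_coeff,
          ls_lamAt_one_apply C (M2pos.mul_mem (heckeDiagMatrix_mem_M2pos hp0) hg)]
        congr 1
        refine Finset.sum_congr rfl fun j _ => ?_
        rw [ls_lamAt_one_apply C (M2pos.mul_mem (heckeMatrix_mem_M2pos hp0 j) hg)]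
      rw [hEq]
      refine Submodule.add_mem _ (Submodule.sum_mem _ fun j _ => ?_) ?_
      · exact ls_lamAt_one_mem_periodLattice (M2pos.mul_mem (heckeMatrix_mem_M2pos hp0 j) hg) i
      · exact ls_lamAt_one_mem_periodLattice (M2pos.mul_mem (heckeDiagMatrix_mem_M2pos hp0) hg) i
    · -- `U_q`
      have hq0 : q ≠ 0 := hq.ne_zero
      have hEq : lamAt n 1 g i ∘ₗ CuspForm.heckeULin ((n : ℤ) + 2) hqN =
          ∑ j ∈ Finset.range q, lamAt n 1 (heckeMatrix q j * g) i := by
        apply LinearMap.ext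
        intro f
        rw [LinearMap.comp_apply, ls_lamAt_one_apply C hg, CuspForm.coe_heckeULin_apply,
          ls_rhoPoly_heckeU C f hq0 hg, LinearMap.sum_apply, Polynomial.finsetSum_coeff]
        refine Finset.sum_congr rfl fun j _ => ?_
        rw [ls_lamAt_one_apply C (M2pos.mul_mem (heckeMatrix_mem_M2pos hq0 j) hg)]
      rw [hEq]
      exact Submodule.sum_mem _ fun j _ =>
        ls_lamAt_one_mem_periodLattice (M2pos.mul_mem (heckeMatrix_mem_M2pos hq0 j) hg) i
  · simp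
  · intro l l' _ _ hl hl'
    rw [LinearMap.add_comp]
    exact Submodule.add_mem _ hl hl'
  · intro c l _ hl
    have : (c • l) ∘ₗ t = c • (l ∘ₗ t) := by
      ext f
      simp
    rw [this]
    exact Submodule.smul_mem _ c hl

end

end Fermat.Agent.S22x
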