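import Mathlib

/-!
# q-series with polynomially bounded coefficients (S22 helper)

For `c : ℕ → ℂ` polynomially bounded, `qSer c z = ∑' n, c n * exp (2πi n z)` is holomorphic on the
upper half plane and can be differentiated termwise.
-/

set_option autoImplicit false

namespace Fermat.Agent.S22x.QS

open Complex Real Filter Topology

/-- The `n`-th term of a `q`-series, as a function on `ℂ`. -/
noncomputable def qTerm (c : ℕ → ℂ) (n : ℕ) (z : ℂ) : ℂ := c n * cexp (2 * π * I * n * z)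

/-- The `q`-series with coefficients `c`, as a function on `ℂ` (meaningful for `0 < z.im`). -/
noncomputable def qSer (c : ℕ → ℂ) (z : ℂ) : ℂ := ∑' n : ℕ, qTerm c n z

/-- Polynomial boundedness of a coefficient sequence. -/
def PolyBdd (c : ℕ → ℂ) : Prop := ∃ C : ℝ, ∃ m : ℕ, ∀ n : ℕ, ‖c n‖ ≤ C * (n : ℝ) ^ m

theorem PolyBdd.mul_two_pi_I_nat {c : ℕ → ℂ} (hc : PolyBdd c) :
    PolyBdd (fun n => 2 * π * I * n * c n) := by
  obtain ⟨C, m, h⟩ := hc
  refine ⟨2 * π * C, m + 1, fun n => ?_⟩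
  have h2 : ‖(2 * π * I * n * c n : ℂ)‖ = 2 * π * n * ‖c n‖ := by
    simp [abs_of_pos Real.pi_pos]
  rw [h2, pow_succ]
  have hn : (0 : ℝ) ≤ n := Nat.cast_nonneg n
  have := h n
  have hpi := Real.pi_pos
  nlinarith [mul_le_mul_of_nonneg_left this (by positivity : (0 : ℝ) ≤ 2 * π * n)]

theorem norm_qTerm (c : ℕ → ℂ) (n : ℕ) (z : ℂ) :
    ‖qTerm c n z‖ = ‖c n‖ * rexp (-(2 * π * n * z.im)) := by
  rw [qTerm, norm_mul, Complex.norm_exp]
  have hre : (2 * π * I * n * z).re = -(2 * π * n * z.im) := by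
    simp [Complex.mul_re, Complex.mul_im]
  rw [hre]

theorem norm_qTerm_le {c : ℕ → ℂ} {C : ℝ} {m : ℕ} (h : ∀ n : ℕ, ‖c n‖ ≤ C * (n : ℝ) ^ m)
    {δ : ℝ} {z : ℂ} (hz : δ ≤ z.im) (n : ℕ) :
    ‖qTerm c n z‖ ≤ C * ((n : ℝ) ^ m * (rexp (-(2 * π * δ))) ^ n) := by
  rw [norm_qTerm, ← Real.exp_nat_mul]
  have h1 : rexp (-(2 * π * n * z.im)) ≤ rexp (n * -(2 * π * δ)) := by
    apply Real.exp_le_exp.mpr
    have hn : (0 : ℝ) ≤ n := Nat.cast_nonneg n
    have hpi := Real.pi_pos
    nlinarith [mul_le_mul_of_nonneg_left hz (by positivity : (0 : ℝ) ≤ 2 * π * n)]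
  calc ‖c n‖ * rexp (-(2 * π * n * z.im))
      ≤ (C * (n : ℝ) ^ m) * rexp (n * -(2 * π * δ)) :=
        mul_le_mul (h n) h1 (Real.exp_pos _).le ((norm_nonneg _).trans (h n))
    _ = C * ((n : ℝ) ^ m * rexp (n * -(2 * π * δ))) := by ring

theorem summable_bound (C : ℝ) (m : ℕ) {δ : ℝ} (hδ : 0 < δ) :
    Summable (fun n : ℕ => C * ((n : ℝ) ^ m * (rexp (-(2 * π * δ))) ^ n)) := by
  have hr : ‖rexp (-(2 * π * δ))‖ < 1 := by
    rw [Real.norm_eq_abs, abs_of_pos (Real.exp_pos _)]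
    rw [Real.exp_lt_one_iff]
    have := Real.pi_pos
    nlinarith [mul_pos this hδ]
  have h := summable_norm_pow_mul_geometric_of_norm_lt_one m hr
  have h' : Summable (fun n : ℕ => (n : ℝ) ^ m * (rexp (-(2 * π * δ))) ^ n) := by
    refine h.congr fun n => ?_
    rw [Real.norm_eq_abs, abs_of_nonneg]
    positivity
  exact h'.mul_left C

theorem summable_qTerm {c : ℕ → ℂ} (hc : PolyBdd c) {z : ℂ} (hz : 0 < z.im) :
    Summable (fun n => qTerm c n z) := by
  obtain ⟨C, m, h⟩ := hc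
  exact Summable.of_norm_bounded (summable_bound C m hz) (norm_qTerm_le h le_rfl)

theorem hasSum_qSer {c : ℕ → ℂ} (hc : PolyBdd c) {z : ℂ} (hz : 0 < z.im) :
    HasSum (fun n => qTerm c n z) (qSer c z) :=
  (summable_qTerm hc hz).hasSum

theorem differentiable_qTerm (c : ℕ → ℂ) (n : ℕ) : Differentiable ℂ (qTerm c n) := by
  unfold qTerm
  fun_prop

theorem deriv_qTerm (c : ℕ → ℂ) (n : ℕ) (z : ℂ) :
    deriv (qTerm c n) z = qTerm (fun n => 2 * π * I * n * c n) n z := by
  have h : HasDerivAt (qTerm c n) (c n * (cexp (2 * π * I * n * z) * (2 * π * I * n))) z := by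
    unfold qTerm
    have h1 : HasDerivAt (fun z : ℂ => 2 * π * I * n * z) (2 * π * I * n) z := by
      simpa using (hasDerivAt_id z).const_mul (2 * π * I * n)
    exact (h1.cexp).const_mul (c n)
  rw [h.deriv, qTerm]
  ring

theorem isOpen_im_gt (δ : ℝ) : IsOpen {z : ℂ | δ < z.im} :=
  isOpen_lt continuous_const Complex.continuous_im

theorem differentiableOn_qSer_of_lt {c : ℕ → ℂ} (hc : PolyBdd c) {δ : ℝ} (hδ : 0 < δ) :
    DifferentiableOn ℂ (qSer c) {z : ℂ | δ < z.im} := by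
  obtain ⟨C, m, h⟩ := hc
  exact differentiableOn_tsum_of_summable_norm (summable_bound C m hδ)
    (fun n => (differentiable_qTerm c n).differentiableOn) (isOpen_im_gt δ)
    (fun n w hw => norm_qTerm_le h (le_of_lt hw) n)

theorem differentiableAt_qSer {c : ℕ → ℂ} (hc : PolyBdd c) {z : ℂ} (hz : 0 < z.im) :
    DifferentiableAt ℂ (qSer c) z := by
  have hδ : 0 < z.im / 2 := by positivity
  exact (differentiableOn_qSer_of_lt hc hδ).differentiableAt
    ((isOpen_im_gt _).mem_nhds (by simp only [Set.mem_ofPred_eq]; linarith))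

theorem differentiableOn_qSer {c : ℕ → ℂ} (hc : PolyBdd c) :
    DifferentiableOn ℂ (qSer c) {z : ℂ | 0 < z.im} :=
  fun _ hz => (differentiableAt_qSer hc hz).differentiableWithinAt

theorem deriv_qSer {c : ℕ → ℂ} (hc : PolyBdd c) {z : ℂ} (hz : 0 < z.im) :
    deriv (qSer c) z = qSer (fun n => 2 * π * I * n * c n) z := by
  obtain ⟨C, m, h⟩ := hc
  have hδ : 0 < z.im / 2 := by positivity
  have hs := hasSum_deriv_of_summable_norm (summable_bound C m hδ)
    (fun n => (differentiable_qTerm c n).differentiableOn) (isOpen_im_gt (z.im / 2))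
    (fun n w hw => norm_qTerm_le h (le_of_lt hw) n)
    (show z ∈ {w : ℂ | z.im / 2 < w.im} by simp only [Set.mem_ofPred_eq]; linarith)
  simp only [deriv_qTerm] at hs
  have hs' : HasSum (fun n => qTerm (fun n => 2 * π * I * n * c n) n z)
      (deriv (qSer c) z) := hs
  exact hs'.tsum_eq.symm

/-- The `j`-fold termwise derivative. -/
theorem iteratedDeriv_qSer {c : ℕ → ℂ} (hc : PolyBdd c) (j : ℕ) {z : ℂ} (hz : 0 < z.im) :
    iteratedDeriv j (qSer c) z = qSer (fun n => (2 * π * I * n) ^ j * c n) z ∧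
      PolyBdd (fun n => (2 * π * I * n) ^ j * c n) := by
  induction j generalizing z with
  | zero => simpa using hc
  | succ j ih =>
    have hpb := (ih hz).2
    refine ⟨?_, ?_⟩
    · rw [iteratedDeriv_succ]
      have hev : iteratedDeriv j (qSer c) =ᶠ[𝓝 z]
          qSer (fun n => (2 * π * I * n) ^ j * c n) := by
        filter_upwards [(isOpen_im_gt 0).mem_nhds hz] with w hw using (ih hw).1
      rw [hev.deriv_eq, deriv_qSer hpb hz]
      congr 1
      funext n
      ring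
    · have := hpb.mul_two_pi_I_nat
      refine (by
        obtain ⟨C, m, h⟩ := this
        exact ⟨C, m, fun n => by simpa [pow_succ, mul_comm, mul_left_comm, mul_assoc] using h n⟩)

end Fermat.Agent.S22x.QS
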