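import Mathlib
import Fermat.Prelude.Def_CuspForm_HeckeAlgebra
import Fermat.Agent.S22x.TrivialWeights

/-!
# S22: trivial weights, in the interface shape of the S22 plan

Thin wrappers around `TrivialWeights.lean`.
-/

set_option autoImplicit false

namespace Fermat.Agent.S22x

theorem finite_of_le_zero (N : ℕ) [NeZero N] (k : ℤ) (hk : k ≤ 0) (S : Set ℕ) :
    Module.Finite ℤ (CuspForm.heckeAlgebra N k S) :=
  moduleFinite_heckeAlgebra_of_nonpos_or_odd N k S (Or.inl hk)

theorem finite_of_odd (N : ℕ) [NeZero N] (k : ℤ) (hk : Odd k) (S : Set ℕ) :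
    Module.Finite ℤ (CuspForm.heckeAlgebra N k S) :=
  moduleFinite_heckeAlgebra_of_nonpos_or_odd N k S (Or.inr hk)

end Fermat.Agent.S22x
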